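import Fermat.Agent.S25.H911.ACCov3
import Fermat.Agent.S25.H11.ACLeaves
import Fermat.Agent.S25.H11.ACFormal
import Fermat.Agent.S25.H11.ACTop
import Fermat.Agent.S25.H851.ACIsoSect
import Fermat.Agent.S25.H671.ACGen
import Fermat.Agent.S25.H791.ACLeaf01

/-!
# S25 / ALGCHARTS, leaf COVER (helper911): `H11.Leaf.Cover` from the stage leaves 0–2

`cover_of_stages : Leaf.Stage0 → Leaf.Stage1 → Leaf.Stage2 → Leaf.Cover` and, with
`H791.leaf_stage0`, `H791.leaf_stage1` plugged in, `cover_of_stage2 : Leaf.Stage2 → Leaf.Cover`.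

Proof.  `G` over a field `K`, of degree `0`.
1. COV1 + COV2 (`cov12'`): `G` has `P3` for a numeric index `(n, m, g, q, β)`; let `φ₀ : Rβ → K`
   be the Hilbert coordinates of the divisor `I'`.
2. COV3 (`cov3_univ`): the universal datum `D₀` over `Rβ`, rigidifiable, of degree `0`, with its
   universal section.  By SectIso (`H851.isIso_of_sect`) `G` is the base change of `D₀` along `φ₀`.
3. `P2` is open and satisfies the fibrewise criterion (stages 0–2, `p2_crit`): there is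
   `a : Rβ` with `φ₀ a ≠ 0` such that `D := D₀ ⊗ (Rβ)_a` has `P2`.
4. The universal section is a generator of `H⁰(D(nE₀ - Σq))` (`H671.isGen_of_mem_of_genModY`), so
   `PointCond x y i D (chartCan i)` for `i = (n, m, g, q, β, a)`.
-/

set_option autoImplicit false
set_option linter.style.haveILetI false
set_option linter.unusedSectionVars false

universe u

open scoped TensorProduct

namespace Fermat.Agent.S25.H911

open Fermat.Agent.S25 Fermat.Agent.S25.H11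

variable {k : Type u} [Field k] [IsAlgClosed k]
  {B₀ B₁ B₀₁ : Type u} [CommRing B₀] [CommRing B₁] [CommRing B₀₁]
  [Algebra k B₀] [Algebra k B₁] [Algebra k B₀₁] [Algebra B₀ B₀₁] [Algebra B₁ B₀₁]
  [IsScalarTower k B₀ B₀₁] [IsScalarTower k B₁ B₀₁] {x : B₀} {y : B₁} {e : B₁ →ₐ[k] k}

/-- The fibrewise criterion and openness for `P2` (stages 0–2). -/
theorem p2_crit (hC : IsCurveChart k B₀ B₁ B₀₁ x y e)
    (h0 : Leaf.Stage0 k B₀ B₁ B₀₁) (h1 : Leaf.Stage1 k B₀ B₁ B₀₁)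
    (h2 : Leaf.Stage2 k B₀ B₁ B₀₁) (i : ChartIndex k B₀) (hnum : i.Numeric B₀₁ y) :
    FibCrit e (fun A _ _ (G : CurveGD k B₀ B₁ B₀₁ A) => P2 x y i.n i.q G) ∧
      SpreadCrit e (fun A _ _ (G : CurveGD k B₀ B₁ B₀₁ A) => P2 x y i.n i.q G) := by
  have hL0 : ∀ (A : Type u) [CommRing A] [Algebra k A] (G : CurveGD k B₀ B₁ B₀₁ A),
      G.Rigidifiable e → G.Deg0 → True →
        HasLocusAt (fun A _ _ (G : CurveGD k B₀ B₁ B₀₁ A) => P0 x i.n G) A G :=
    fun A _ _ G _ _ _ => h0 x y e hC i.n A G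
  have f0 := fibCrit_step (e := e) (fun _ _ _ _ _ => trivial) (fibCrit_true e) hL0
  have s0 := spreadCrit_step (e := e) (fun _ _ _ _ _ => trivial) (fibCrit_true e)
    (spreadCrit_true e) hL0
  have hL1 : ∀ (A : Type u) [CommRing A] [Algebra k A] (G : CurveGD k B₀ B₁ B₀₁ A),
      G.Rigidifiable e → G.Deg0 → P0 x i.n G →
        HasLocusAt (fun A _ _ (G : CurveGD k B₀ B₁ B₀₁ A) => P1 x i.n i.q G) A G :=
    fun A _ _ G _ _ hp => h1 x y e hC i.n i.q A G hp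
  have f1 := fibCrit_step (e := e) (fun _ _ _ _ h => P1.p0 h) f0 hL1
  have s1 := spreadCrit_step (e := e) (fun _ _ _ _ h => P1.p0 h) f0 s0 hL1
  have hL2 : ∀ (A : Type u) [CommRing A] [Algebra k A] (G : CurveGD k B₀ B₁ B₀₁ A),
      G.Rigidifiable e → G.Deg0 → P1 x i.n i.q G →
        HasLocusAt (fun A _ _ (G : CurveGD k B₀ B₁ B₀₁ A) => P2 x y i.n i.q G) A G :=
    fun A _ _ G hr hd hp => h2 x y e hC i hnum A G hr hd hp
  exact ⟨fibCrit_step (e := e) (fun _ _ _ _ h => P2.p1 h) f1 hL2,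
    spreadCrit_step (e := e) (fun _ _ _ _ h => P2.p1 h) f1 s1 hL2⟩

/-- **COVER** from the stage leaves 0–2. -/
theorem cover_of_stages (h0 : Leaf.Stage0 k B₀ B₁ B₀₁) (h1 : Leaf.Stage1 k B₀ B₁ B₀₁)
    (h2 : Leaf.Stage2 k B₀ B₁ B₀₁) : Leaf.Cover k B₀ B₁ B₀₁ := by
  intro x y e hC K _ _ _ G _ hdeg
  -- 1. `G` has `P3`
  obtain ⟨i₀, hnum₀, -, -, hP1, s, hs, I', hI', hspan⟩ := cov12' hC G hdeg
  obtain ⟨φ₀, hφ₀, -⟩ := H491.existsUnique_algHom_of_isChart hI'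
  have hφ₀' : (H491.univIdeal (k := k) i₀.β).map (H491.bc B₀ φ₀) = I' := hφ₀
  -- 2. the universal datum, and `G` as its base change
  obtain ⟨D₀, hrigD, hdegD, sD, hsD, hgenD, hspanD⟩ := cov3_univ (e := e) hC i₀ hnum₀
  obtain ⟨G₀, hG₀⟩ := H265.curveGD_exists_isBC φ₀ D₀
  have hbc : CurveGD.IsBC φ₀ D₀ G := by
    obtain ⟨bm⟩ := hG₀
    refine H265.curveGD_isBC_of_isIso_right ⟨bm⟩ ?_
    refine H851.isIso_of_sect hC i₀.n i₀.β i₀.q φ₀
      ⟨(bm.b₀ sD.1, bm.b₁ sD.2), sec_map bm hsD, genModY_map bm hgenD,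
        span_map bm i₀.q _ hspanD⟩
      ⟨s, hs.mem.1, hs.gen, ?_⟩
    rw [hφ₀']
    exact hspan
  -- 3. spreading out `P2`
  have hP2 : P2 x y i₀.n i₀.q G := ⟨hP1, s, hs⟩
  obtain ⟨hfib, hspr⟩ := p2_crit (e := e) hC h0 h1 h2 i₀ hnum₀
  obtain ⟨a, ha, hgood⟩ := hspr (H491.Rβ k i₀.β) D₀ hrigD hdegD K φ₀ G hbc hP2
  -- the chart index
  let i : ChartIndex k B₀ := ⟨i₀.n, i₀.m, i₀.g, i₀.q, i₀.β, a⟩
  have hnum : i.Numeric B₀₁ y := hnum₀
  refine ⟨i, hnum, ?_⟩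
  obtain ⟨D, hD⟩ := H265.curveGD_exists_isBC (chartCan i) D₀
  have hrig' : D.Rigidifiable e := H265.rigidifiable_of_isBC hD hrigD
  have hdeg' : D.Deg0 := H265.deg0_of_isBC hD hdegD
  have hunit : IsUnit (chartCan i a) := IsLocalization.Away.algebraMap_isUnit a
  have hP2D : P2 x y i.n i.q D := by
    refine hfib (chartRing i) D hrig' hdeg' (fun L _ _ θ Gθ hGθ => ?_)
    refine hgood L (θ.comp (chartCan i)) Gθ (H265.curveGD_isBC_comp hD hGθ) ?_
    rw [AlgHom.comp_apply]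
    exact (hunit.map θ).ne_zero
  -- 4. the point condition for the universal section
  have hpc : PointCond x y i D (chartCan i) := by
    obtain ⟨bmD⟩ := hD
    obtain ⟨hP1D, t, ht⟩ := hP2D
    have hsec' := sec_map bmD hsD
    have hgen' := genModY_map bmD hgenD
    have hspan' := span_map bmD i.q _ hspanD
    have hvan : bmD.b₀ sD.1 ∈ vanq i.q D := by
      have h : bmD.b₀ sD.1 ∈ Submodule.span (chartRing i ⊗[k] B₀) {bmD.b₀ sD.1} :=
        Submodule.mem_span_singleton_self _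
      rw [hspan'] at h
      have hle : (H491.univIdeal (k := k) i₀.β).map (H491.bc B₀ (chartCan i)) *
          ptIdeal i.q (chartRing i) ≤ ptIdeal i.q (chartRing i) := Ideal.mul_le_right
      exact Submodule.smul_mono_left hle h
    exact ⟨hP1D, ⟨(bmD.b₀ sD.1, bmD.b₁ sD.2),
      H671.isGen_of_mem_of_genModY hC ht ⟨hsec', hvan⟩ hgen', hspan'⟩, hunit⟩
  obtain ⟨φ, hφ⟩ := exists_lift_away a φ₀ ha
  exact ⟨D, hrig', hdeg', hpc, φ, H265.curveGD_isBC_of_comp_eq hφ.symm hD hbc⟩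

/-- **COVER** from the leaf `Stage2` alone (stages 0 and 1 are `H791.leaf_stage0/1`). -/
theorem cover_of_stage2 (h2 : Leaf.Stage2 k B₀ B₁ B₀₁) : Leaf.Cover k B₀ B₁ B₀₁ :=
  cover_of_stages H791.leaf_stage0 H791.leaf_stage1 h2

end Fermat.Agent.S25.H911
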