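import Mathlib

/-!
# S25 / HILB leaf H6, part 0 (helper911): invertibility of a module is Zariski-local

* `rankAtStalk_eq_one_of_invertible` : an invertible module has rank one at every prime.
* `invertible_of_rankAtStalk_one` : a finite projective module of rank one is invertible.
* `invertible_localizedModule_away` : transport of invertibility from an arbitrary model
  `(R_f, M_f)` of the localization away from `f` to the canonical model.
* `invertible_of_localizationSpan` : `M` is invertible as soon as `M_r` is invertible over `R_r`
  for all `r` in a set spanning the unit ideal.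
* `invertible_of_isLocalized_pair` : the same for a two-element cover with arbitrary models.

Mathlib-only.
-/

set_option autoImplicit false
set_option linter.style.haveILetI false

namespace Fermat.Agent.S25.H911

open TensorProduct Module

section RankOne

variable {R : Type*} [CommRing R] {P : Type*} [AddCommGroup P] [Module R P]

/-- An invertible module has rank one at every prime. -/
theorem rankAtStalk_eq_one_of_invertible [Module.Invertible R P] (p : PrimeSpectrum R) :
    rankAtStalk P p = 1 := by
  simp [rankAtStalk, Module.Invertible.finrank_eq_one]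

variable [Module.Finite R P] [Module.Projective R P]

/-- The rank of the dual of a finite projective module. -/
theorem rankAtStalk_dual_eq (p : PrimeSpectrum R) :
    rankAtStalk (Module.Dual R P) p = rankAtStalk P p := by
  have : Module.FinitePresentation R P := Module.finitePresentation_of_projective R P
  let S := Localization.AtPrime p.asIdeal
  have hbc : IsBaseChange S (LinearMap.baseChangeHom R S P R) :=
    Module.FinitePresentation.isBaseChange_map R P R S
  have e : S ⊗[R] (P →ₗ[R] R) ≃ₗ[S] (S ⊗[R] P →ₗ[S] S ⊗[R] R) := hbc.equiv
  have : Module.Free S (S ⊗[R] P) := Module.free_of_flat_of_isLocalRing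
  have hR : Nontrivial R := p.nontrivial
  rw [rankAtStalk_eq_finrank_tensorProduct, rankAtStalk_eq_finrank_tensorProduct]
  change Module.finrank S (S ⊗[R] (P →ₗ[R] R)) = _
  rw [e.finrank_eq, Module.finrank_linearMap, Module.finrank_baseChange (R := S) (M' := R),
    Module.finrank_self, mul_one]

/-- For a finite projective module of positive rank everywhere the contraction
`P^* ⊗ P → R` is surjective. -/
theorem contractLeft_surjective_of_pos (h : ∀ p : PrimeSpectrum R, 0 < rankAtStalk P p) :
    Function.Surjective (contractLeft R P) := by
  classical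
  rw [← LinearMap.range_eq_top]
  by_contra hne
  obtain ⟨𝔪, h𝔪, hτ𝔪⟩ := Ideal.exists_le_maximal (LinearMap.range (contractLeft R P)) hne
  obtain ⟨n, f, g, -, -, hfg⟩ := Module.Finite.exists_comp_eq_id_of_projective R P
  have hmem : ∀ x : P, x ∈ 𝔪 • (⊤ : Submodule R P) := by
    intro x
    have hx : x = ∑ i : Fin n, (g x) i • f (Pi.single i 1) := by
      conv_lhs => rw [← LinearMap.id_apply (R := R) x, ← hfg, LinearMap.comp_apply]
      conv_lhs => rw [← Finset.univ_sum_single (g x)]
      rw [map_sum]
      refine Finset.sum_congr rfl fun i _ => ?_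
      rw [← map_smul]
      congr 1
      ext j
      simp [Pi.single_apply]
    rw [hx]
    refine Submodule.sum_mem _ fun i _ => Submodule.smul_mem_smul (hτ𝔪 ?_) trivial
    exact ⟨((LinearMap.proj i : (Fin n → R) →ₗ[R] R) ∘ₗ g) ⊗ₜ[R] x, by simp [contractLeft_apply]⟩
  obtain ⟨r, hr1, hr⟩ := Submodule.exists_sub_one_mem_and_smul_eq_zero_of_fg_of_le_smul 𝔪
    (⊤ : Submodule R P) Module.Finite.fg_top fun x _ => hmem x
  have hr𝔪 : r ∉ 𝔪 := fun hr𝔪 =>
    h𝔪.ne_top ((Ideal.eq_top_iff_one 𝔪).mpr (by simpa using 𝔪.sub_mem hr𝔪 hr1))
  have hzero : rankAtStalk P ⟨𝔪, h𝔪.isPrime⟩ = 0 := by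
    rw [rankAtStalk_eq_zero_iff_notMem_support, Module.notMem_support_iff']
    exact fun x => ⟨r, hr𝔪, hr x trivial⟩
  have := h ⟨𝔪, h𝔪.isPrime⟩
  omega

/-- **H0b.** A finite projective module of rank one everywhere is invertible. -/
theorem invertible_of_rankAtStalk_one (h : ∀ p : PrimeSpectrum R, rankAtStalk P p = 1) :
    Module.Invertible R P := by
  rcases subsingleton_or_nontrivial R with hR | hR
  · have : Subsingleton (Module.Dual R P ⊗[R] P) := Module.subsingleton R _
    exact ⟨⟨fun x y _ => Subsingleton.elim _ _, fun y => ⟨0, Subsingleton.elim _ _⟩⟩⟩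
  · have hs : Function.Surjective (contractLeft R P) :=
      contractLeft_surjective_of_pos fun p => by rw [h p]; exact Nat.one_pos
    refine ⟨Module.bijective_of_surjective_of_rankAtStalk_eq (M := Module.Dual R P ⊗[R] P)
      (N := R) (φ := contractLeft R P) hs fun m _ => ?_⟩
    rw [rankAtStalk_tensorProduct, Pi.mul_apply, rankAtStalk_dual_eq, h, rankAtStalk_self]
    rfl

end RankOne

section Local

variable {R : Type*} [CommRing R] {M : Type*} [AddCommGroup M] [Module R M]

/-- Transport of invertibility from an arbitrary model `(Rf, Mf)` of the localization away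
from `f` to the canonical model. -/
theorem invertible_localizedModule_away (f : R) {Rf : Type*} [CommRing Rf] [Algebra R Rf]
    [IsLocalization.Away f Rf] {Mf : Type*} [AddCommGroup Mf] [Module R Mf] [Module Rf Mf]
    [IsScalarTower R Rf Mf] (φ : M →ₗ[R] Mf) [IsLocalizedModule (Submonoid.powers f) φ]
    [Module.Invertible Rf Mf] :
    Module.Invertible (Localization.Away f) (LocalizedModule.Away f M) := by
  letI : Algebra Rf (Localization.Away f) :=
    (IsLocalization.Away.lift (S := Rf) f (g := algebraMap R (Localization.Away f))
      (IsLocalization.Away.algebraMap_isUnit f)).toAlgebra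
  haveI : IsScalarTower R Rf (Localization.Away f) :=
    IsScalarTower.of_algebraMap_eq' (IsLocalization.Away.lift_comp ..).symm
  have e1 : Rf ⊗[R] M ≃ₗ[Rf] Mf :=
    (IsLocalizedModule.isBaseChange (Submonoid.powers f) Rf φ).equiv
  haveI : Module.Invertible Rf (Rf ⊗[R] M) := .congr e1.symm
  have e2 : (Localization.Away f) ⊗[Rf] (Rf ⊗[R] M) ≃ₗ[Localization.Away f]
      (Localization.Away f) ⊗[R] M :=
    AlgebraTensorModule.cancelBaseChange R Rf (Localization.Away f) (Localization.Away f) M
  haveI : Module.Invertible (Localization.Away f) ((Localization.Away f) ⊗[R] M) := .congr e2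
  have e3 : (Localization.Away f) ⊗[R] M ≃ₗ[Localization.Away f] LocalizedModule.Away f M :=
    (IsLocalizedModule.isBaseChange (Submonoid.powers f) (Localization.Away f)
      (LocalizedModule.mkLinearMap (Submonoid.powers f) M)).equiv
  exact .congr e3

/-- **Invertibility is Zariski-local.** -/
theorem invertible_of_localizationSpan (s : Set R) (hs : Ideal.span s = ⊤)
    (h : ∀ g : s, Module.Invertible (Localization.Away g.1) (LocalizedModule.Away g.1 M)) :
    Module.Invertible R M := by
  have hfp : Module.FinitePresentation R M :=
    Module.FinitePresentation.of_localizationSpan s hs fun g =>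
      haveI := h g
      Module.finitePresentation_of_projective _ _
  have hflat : Module.Flat R M :=
    Module.flat_of_localized_span R M s hs fun g =>
      haveI := h g
      Module.Flat.trans R (Localization.Away g.1) (LocalizedModule.Away g.1 M)
  have hfin : Module.Finite R M := inferInstance
  have hproj : Module.Projective R M := Module.Flat.projective_of_finitePresentation
  refine invertible_of_rankAtStalk_one fun p => ?_
  -- find `r ∈ s` outside `p`
  obtain ⟨r, hrs, hrp⟩ : ∃ r ∈ s, r ∉ p.asIdeal := by
    by_contra! hcon
    have : Ideal.span s ≤ p.asIdeal := Ideal.span_le.mpr hcon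
    rw [hs] at this
    exact p.isPrime.ne_top (top_le_iff.mp this)
  haveI := h ⟨r, hrs⟩
  have hdisj : Disjoint (Submonoid.powers r : Set R) (p.asIdeal : Set R) := by
    rw [Set.disjoint_left]
    rintro _ ⟨n, rfl⟩ hmem
    exact hrp (p.isPrime.mem_of_pow_mem n hmem)
  let p' : PrimeSpectrum (Localization.Away r) :=
    ⟨p.asIdeal.map (algebraMap R (Localization.Away r)),
      IsLocalization.isPrime_of_isPrime_disjoint (Submonoid.powers r) _ _ p.isPrime hdisj⟩
  have hcomap : p'.comap (algebraMap R (Localization.Away r)) = p := by
    ext1
    exact IsLocalization.under_map_of_isPrime_disjoint (Submonoid.powers r) _ p.isPrime hdisj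
  have h1 := rankAtStalk_isBaseChange
    (IsLocalizedModule.isBaseChange (Submonoid.powers r) (Localization.Away r)
      (LocalizedModule.mkLinearMap (Submonoid.powers r) M)) p'
  rw [hcomap, rankAtStalk_eq_one_of_invertible] at h1
  exact h1.symm

/-- Invertibility can be checked on a two-element Zariski cover, with arbitrary models of the
localizations. -/
theorem invertible_of_isLocalized_pair (f g : R) (hfg : Ideal.span {f, g} = ⊤)
    {Rf : Type*} [CommRing Rf] [Algebra R Rf] [IsLocalization.Away f Rf]
    {Mf : Type*} [AddCommGroup Mf] [Module R Mf] [Module Rf Mf] [IsScalarTower R Rf Mf]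
    (φf : M →ₗ[R] Mf) [IsLocalizedModule (Submonoid.powers f) φf] [Module.Invertible Rf Mf]
    {Rg : Type*} [CommRing Rg] [Algebra R Rg] [IsLocalization.Away g Rg]
    {Mg : Type*} [AddCommGroup Mg] [Module R Mg] [Module Rg Mg] [IsScalarTower R Rg Mg]
    (φg : M →ₗ[R] Mg) [IsLocalizedModule (Submonoid.powers g) φg] [Module.Invertible Rg Mg] :
    Module.Invertible R M := by
  refine invertible_of_localizationSpan {f, g} hfg ?_
  rintro ⟨r, hr⟩
  rcases hr with rfl | hr
  · exact invertible_localizedModule_away r (Rf := Rf) φf
  · obtain rfl : r = g := hr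
    exact invertible_localizedModule_away r (Rf := Rg) φg

end Local

end Fermat.Agent.S25.H911
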