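import Fermat.Agent.S25.H911.ACCov12
import Fermat.Agent.S25.H565.ACDeg2
import Fermat.Agent.S25.H325.ACUnivProd

/-!
# S25 / ALGCHARTS, COV1–COV3 unconditional (helper911)

DEG2 (`H565.degree_eq_of_section`) plugged into `H911.deg0_of_section`, `H911.cov2`,
`H911.cov12`; the datum of helper325 (`H325.exists_datum_of_coord`) completed by `Deg0`.

* `deg0_of_section'`, `rigidifiable_and_deg0_of_section'` : COV3 RIG + DEG0, unconditional;
* `cov2'` : over a field, `G.degree = 0 → P2 → ∃ β, P3`;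
* `cov12'` : over a field, `G.degree = 0 → ∃ i, Numeric ∧ Injective q ∧ f = 1 ∧ P3`;
* `cov3_coord` : for every numeric index `i` and `φ₀ : Rβ → A` a datum over `A`, rigidifiable,
  of degree `0`, with a section in the shape of `PointCond.sect`;
* `cov3_univ` : the universal datum over `Rβ`.
-/

set_option autoImplicit false
set_option linter.style.haveILetI false
set_option linter.unusedSectionVars false

universe u

open scoped TensorProduct

namespace Fermat.Agent.S25.H911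

open Fermat.Agent.S25

variable {k : Type u} [Field k] [IsAlgClosed k]
  {B₀ B₁ B₀₁ : Type u} [CommRing B₀] [CommRing B₁] [CommRing B₀₁]
  [Algebra k B₀] [Algebra k B₁] [Algebra k B₀₁] [Algebra B₀ B₀₁] [Algebra B₁ B₀₁]
  [IsScalarTower k B₀ B₀₁] [IsScalarTower k B₁ B₀₁] {x : B₀} {y : B₁} {e : B₁ →ₐ[k] k}

/-- **COV3, degree** (unconditional). -/
theorem deg0_of_section' (hC : IsCurveChart k B₀ B₁ B₀₁ x y e) {n m g : ℕ}
    (q : Fin m → (B₀ →ₐ[k] k))
    (hnum : m + g = n * Module.finrank k (B₁ ⧸ Ideal.span {y}))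
    {A : Type u} [CommRing A] [Algebra k A] (G : CurveGD k B₀ B₁ B₀₁ A) (s : G.N₀ × G.N₁)
    (hs : s ∈ H11.sec x n G) (hgen : H11.GenModY y G s.2) (I' : Ideal (A ⊗[k] B₀))
    (hI' : H491.IsHilb g I')
    (hspan : Submodule.span (A ⊗[k] B₀) {s.1} =
      (I' * H11.ptIdeal q A) • (⊤ : Submodule (A ⊗[k] B₀) G.N₀)) :
    G.Deg0 :=
  deg0_of_section hC (fun _ _ _ G n s hs hgen => H565.degree_eq_of_section hC G n s hs hgen)
    q hnum G s hs hgen I' hI' hspan

/-- **COV3, rigidification and degree** (unconditional). -/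
theorem rigidifiable_and_deg0_of_section' (hC : IsCurveChart k B₀ B₁ B₀₁ x y e) {n m g : ℕ}
    (q : Fin m → (B₀ →ₐ[k] k))
    (hnum : m + g = n * Module.finrank k (B₁ ⧸ Ideal.span {y}))
    {A : Type u} [CommRing A] [Algebra k A] (G : CurveGD k B₀ B₁ B₀₁ A) (s : G.N₀ × G.N₁)
    (hs : s ∈ H11.sec x n G) (hgen : H11.GenModY y G s.2) (I' : Ideal (A ⊗[k] B₀))
    (hI' : H491.IsHilb g I')
    (hspan : Submodule.span (A ⊗[k] B₀) {s.1} =
      (I' * H11.ptIdeal q A) • (⊤ : Submodule (A ⊗[k] B₀) G.N₀)) :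
    G.Rigidifiable e ∧ G.Deg0 :=
  ⟨rigidifiable_of_genModY hC.e_y G s.2 hgen, deg0_of_section' hC q hnum G s hs hgen I' hI' hspan⟩

/-- **COV2** (unconditional): over a field, degree `0` and `P2` give `P3` for some `β`. -/
theorem cov2' (hC : IsCurveChart k B₀ B₁ B₀₁ x y e) {K : Type u} [Field K] [Algebra k K]
    {n m g : ℕ} (q : Fin m → (B₀ →ₐ[k] k))
    (hnum : m + g = n * Module.finrank k (B₁ ⧸ Ideal.span {y}))
    (G : CurveGD k B₀ B₁ B₀₁ K) (hdeg : G.degree = 0) (h2 : H11.P2 x y n q G) :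
    ∃ β : Fin g → B₀, H11.P3 x y n q β G :=
  cov2 hC (fun _ _ _ G n s hs hgen => H565.degree_eq_of_section hC G n s hs hgen)
    q hnum G hdeg h2

/-- **COV1 + COV2** (unconditional): every gluing datum of degree `0` over a field has `P3` for
a numeric chart index. -/
theorem cov12' (hC : IsCurveChart k B₀ B₁ B₀₁ x y e) {K : Type u} [Field K] [Algebra k K]
    (G : CurveGD k B₀ B₁ B₀₁ K) (hdeg : G.degree = 0) :
    ∃ i : H11.ChartIndex k B₀, i.Numeric B₀₁ y ∧ Function.Injective i.q ∧ i.f = 1 ∧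
      H11.P3 x y i.n i.q i.β G :=
  cov12_index hC (fun _ _ _ G n s hs hgen => H565.degree_eq_of_section hC G n s hs hgen) G hdeg

/-- **COV3 over any base**: for a numeric chart index `i` and Hilbert coordinates
`φ₀ : Rβ → A` there is a gluing datum over `A`, rigidifiable, of degree `0`, with a section
in the shape of `PointCond.sect`. -/
theorem cov3_coord (hC : IsCurveChart k B₀ B₁ B₀₁ x y e) (i : H11.ChartIndex k B₀)
    (hnum : i.Numeric B₀₁ y) {A : Type u} [CommRing A] [Algebra k A]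
    (φ₀ : H491.Rβ k i.β →ₐ[k] A) :
    ∃ D : CurveGD k B₀ B₁ B₀₁ A, D.Rigidifiable e ∧ D.Deg0 ∧ ∃ s ∈ H11.sec x i.n D,
      H11.GenModY y D s.2 ∧ Submodule.span (A ⊗[k] B₀) {s.1} =
        ((H491.univIdeal (k := k) i.β).map (H491.bc B₀ φ₀) * H11.ptIdeal i.q A) •
          (⊤ : Submodule (A ⊗[k] B₀) D.N₀) := by
  obtain ⟨D, hrig, s, hs, hgen, hspan⟩ := H325.exists_datum_of_coord (e := e) A hC i φ₀
  refine ⟨D, hrig, ?_, s, hs, hgen, hspan⟩
  exact deg0_of_section' hC i.q hnum.1 D s hs hgen _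
    ((H491.isChart_univIdeal i.β).isHilb.map φ₀) hspan

/-- **COV3: the universal datum** over `Rβ`, rigidifiable and of degree `0`. -/
theorem cov3_univ (hC : IsCurveChart k B₀ B₁ B₀₁ x y e) (i : H11.ChartIndex k B₀)
    (hnum : i.Numeric B₀₁ y) :
    ∃ D : CurveGD k B₀ B₁ B₀₁ (H491.Rβ k i.β), D.Rigidifiable e ∧ D.Deg0 ∧
      ∃ s ∈ H11.sec x i.n D, H11.GenModY y D s.2 ∧
        Submodule.span (H491.Rβ k i.β ⊗[k] B₀) {s.1} =
          (H491.univIdeal (k := k) i.β * H11.ptIdeal i.q (H491.Rβ k i.β)) •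
            (⊤ : Submodule (H491.Rβ k i.β ⊗[k] B₀) D.N₀) := by
  obtain ⟨D, hrig, s, hs, hgen, hspan⟩ := H325.exists_univ_datum (e := e) hC i
  refine ⟨D, hrig, ?_, s, hs, hgen, hspan⟩
  exact deg0_of_section' hC i.q hnum.1 D s hs hgen _ (H491.isChart_univIdeal i.β).isHilb hspan

end Fermat.Agent.S25.H911
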