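import Fermat.Agent.S25.H911.ACCov2
import Fermat.Agent.S25.H310.ACDeg1
import Fermat.Agent.S25.H971.ACCov1

/-!
# S25 / ALGCHARTS, COV1 + COV2 (helper911): every degree-zero gluing datum over a field has `P3`

`cov12` : for a field `K ⊇ k` and `G` over `K` of degree `0` there are a twist `n`, distinct
`k`-points `q : Fin m → (B₀ →ₐ[k] k)` and `β : Fin g → B₀` (`g` the genus, `m + g = n d`) with
`P3 x y n q β G`.  `cov12_index` packages them into a `ChartIndex` (with `f = 1`).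

Inputs: COV1 (`H971.cov1`), DEG1 (`H310.finrank_sec`), DEG3 (`H190.exists_P0`), all on main, and
COV2 (`H911.cov2`).  DEG2 is an explicit hypothesis `hDEG2` (skeleton shape).
-/

set_option autoImplicit false
set_option linter.style.haveILetI false
set_option linter.unusedSectionVars false

universe u

open scoped TensorProduct

namespace Fermat.Agent.S25.H911

open Fermat.Agent.S25

variable {k : Type u} [Field k] [IsAlgClosed k]
  {B₀ B₁ B₀₁ : Type u} [CommRing B₀] [CommRing B₁] [CommRing B₀₁]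
  [Algebra k B₀] [Algebra k B₁] [Algebra k B₀₁] [Algebra B₀ B₀₁] [Algebra B₁ B₀₁]
  [IsScalarTower k B₀ B₀₁] [IsScalarTower k B₁ B₀₁] {x : B₀} {y : B₁} {e : B₁ →ₐ[k] k}
  {K : Type u} [Field K] [Algebra k K]

/-- **COV1 + COV2**: a gluing datum of degree `0` over a field satisfies `P3` for suitable
`n, q, β`. -/
theorem cov12 (hC : IsCurveChart k B₀ B₁ B₀₁ x y e)
    (hDEG2 : ∀ (K : Type u) [Field K] [Algebra k K] (G : CurveGD k B₀ B₁ B₀₁ K) (n : ℕ)
      (s : G.N₀ × G.N₁), s ∈ H11.sec x n G → H11.GenModY y G s.2 →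
      Module.Finite K (G.N₀ ⧸ Submodule.span (K ⊗[k] B₀) {s.1}) ∧
        G.degree = (Module.finrank K (G.N₀ ⧸ Submodule.span (K ⊗[k] B₀) {s.1}) : ℤ) -
          (n * Module.finrank k (B₁ ⧸ Ideal.span {y}) : ℕ))
    (G : CurveGD k B₀ B₁ B₀₁ K) (hdeg : G.degree = 0) :
    ∃ (n m : ℕ) (q : Fin m → (B₀ →ₐ[k] k))
      (β : Fin (Module.finrank k
        (GlueDatum.unit k (k ⊗[k] B₀) (k ⊗[k] B₁) (k ⊗[k] B₀₁)).H1) → B₀),
      Function.Injective q ∧
      m + Module.finrank k (GlueDatum.unit k (k ⊗[k] B₀) (k ⊗[k] B₁) (k ⊗[k] B₀₁)).H1 =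
        n * Module.finrank k (B₁ ⧸ Ideal.span {y}) ∧ H11.P3 x y n q β G := by
  obtain ⟨n, m, q, hq, hnum, h2⟩ := H971.cov1 hC G (H190.exists_P0 hC G)
    (fun n h0 => H310.finrank_sec hC G hdeg n h0)
  obtain ⟨β, h3⟩ := cov2 hC hDEG2 q hnum G hdeg h2
  exact ⟨n, m, q, β, hq, hnum, h3⟩

/-- `cov12` with the data packaged in a numeric `ChartIndex` (with `f = 1`). -/
theorem cov12_index (hC : IsCurveChart k B₀ B₁ B₀₁ x y e)
    (hDEG2 : ∀ (K : Type u) [Field K] [Algebra k K] (G : CurveGD k B₀ B₁ B₀₁ K) (n : ℕ)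
      (s : G.N₀ × G.N₁), s ∈ H11.sec x n G → H11.GenModY y G s.2 →
      Module.Finite K (G.N₀ ⧸ Submodule.span (K ⊗[k] B₀) {s.1}) ∧
        G.degree = (Module.finrank K (G.N₀ ⧸ Submodule.span (K ⊗[k] B₀) {s.1}) : ℤ) -
          (n * Module.finrank k (B₁ ⧸ Ideal.span {y}) : ℕ))
    (G : CurveGD k B₀ B₁ B₀₁ K) (hdeg : G.degree = 0) :
    ∃ i : H11.ChartIndex k B₀, i.Numeric B₀₁ y ∧ Function.Injective i.q ∧ i.f = 1 ∧
      H11.P3 x y i.n i.q i.β G := by
  obtain ⟨n, m, q, β, hq, hnum, h3⟩ := cov12 hC hDEG2 G hdeg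
  exact ⟨⟨n, m, _, q, β, 1⟩, ⟨hnum, rfl⟩, hq, rfl, h3⟩

end Fermat.Agent.S25.H911
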