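import Fermat.Agent.S25.H911.ACDeg0
import Fermat.Agent.S25.H671.ACCancel

/-!
# S25 / ALGCHARTS, COV2 (helper911): over a field, `P2` and degree zero give `P3`

By a degree count, without the long exact sequence: over a field `K`, for `G` of degree `0` and
a generator `s` of `H⁰(G(n E₀ - Σ q))` (not vanishing on `E₀`), the colon ideal
`I' := (R₀ s₀ : I_q N₀)` satisfies `R₀ s₀ = (I' * I_q) N₀` and
`dim R₀ / I' = dim N₀ / (s₀) - m = n d - m = g`.

* `finite_quotient_of_finite_quotient_smul_top` : `N / J N` finite over `K`, `N` invertible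
  `⇒ R / J` finite over `K`;
* `core_field` : CORE over a field (`∃ I', IsHilb g I' ∧ span {s.1} = (I' * ptIdeal q K) • ⊤`);
* `cov2` : `P2 x y n q G → ∃ β, P3 x y n q β G`.

DEG2 (`degree_eq_of_section` of the skeleton) is an explicit hypothesis `hDEG2`.
-/

set_option autoImplicit false
set_option linter.style.haveILetI false
set_option linter.unusedSectionVars false

universe u

open scoped TensorProduct

namespace Fermat.Agent.S25.H911

open Fermat.Agent.S25

/-- If `N` is invertible and `N / J N` is finite over `K`, then `R / J` is finite over `K`. -/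
theorem finite_quotient_of_finite_quotient_smul_top {K R N : Type u} [Field K] [CommRing R]
    [Algebra K R] [AddCommGroup N] [Module R N] [Module K N] [IsScalarTower K R N]
    [Module.Invertible R N] (J : Ideal R) [Module.Finite K (N ⧸ (J • ⊤ : Submodule R N))] :
    Module.Finite K (R ⧸ J) := by
  have e1 : ((R ⧸ J) ⊗[R] N) ≃ₗ[K] N ⧸ (J • (⊤ : Submodule R N)) :=
    (TensorProduct.quotTensorEquivQuotSMul N J).restrictScalars K
  haveI : Module.Finite K ((R ⧸ J) ⊗[R] N) := Module.Finite.equiv e1.symm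
  let f : (R ⧸ J) →ₗ[K] Module.End K ((R ⧸ J) ⊗[R] N) :=
    (Algebra.lsmul K K ((R ⧸ J) ⊗[R] N)).toLinearMap
  have hf : Function.Injective f := by
    intro r r' h
    apply eq_of_smul_eq_smul (α := (R ⧸ J) ⊗[R] N)
    intro v
    exact LinearMap.congr_fun h v
  exact Module.Finite.of_injective f hf

variable {k : Type u} [Field k] [IsAlgClosed k]
  {B₀ B₁ B₀₁ : Type u} [CommRing B₀] [CommRing B₁] [CommRing B₀₁]
  [Algebra k B₀] [Algebra k B₁] [Algebra k B₀₁] [Algebra B₀ B₀₁] [Algebra B₁ B₀₁]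
  [IsScalarTower k B₀ B₀₁] [IsScalarTower k B₁ B₀₁] {x : B₀} {y : B₁} {e : B₁ →ₐ[k] k}
  {K : Type u} [Field K] [Algebra k K]

/-- `ptIdeal q K` is an invertible module (over a field `K`). -/
theorem ptIdeal_invertible_field (hC : IsCurveChart k B₀ B₁ B₀₁ x y e) {m : ℕ}
    (q : Fin m → (B₀ →ₐ[k] k)) : Module.Invertible (K ⊗[k] B₀) (H11.ptIdeal q K) := by
  obtain ⟨hf, -⟩ := finrank_quotient_ptIdeal (K := K) hC q
  exact H851.hilb_invertible K hC (H11.ptIdeal q K)

/-- **CORE over a field**: the divisor of a section of `G(n E₀ - Σ q)` not vanishing on `E₀`,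
for `G` of degree `0`, is `I' * ptIdeal q K` with `I'` a point of `Hilb^g`, `m + g = n d`. -/
theorem core_field (hC : IsCurveChart k B₀ B₁ B₀₁ x y e)
    (hDEG2 : ∀ (K : Type u) [Field K] [Algebra k K] (G : CurveGD k B₀ B₁ B₀₁ K) (n : ℕ)
      (s : G.N₀ × G.N₁), s ∈ H11.sec x n G → H11.GenModY y G s.2 →
      Module.Finite K (G.N₀ ⧸ Submodule.span (K ⊗[k] B₀) {s.1}) ∧
        G.degree = (Module.finrank K (G.N₀ ⧸ Submodule.span (K ⊗[k] B₀) {s.1}) : ℤ) -
          (n * Module.finrank k (B₁ ⧸ Ideal.span {y}) : ℕ))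
    {n m g : ℕ} (q : Fin m → (B₀ →ₐ[k] k))
    (hnum : m + g = n * Module.finrank k (B₁ ⧸ Ideal.span {y}))
    (G : CurveGD k B₀ B₁ B₀₁ K) (hdeg : G.degree = 0) (s : G.N₀ × G.N₁)
    (hs : s ∈ H11.secq x n q G) (hgen : H11.GenModY y G s.2) :
    ∃ I' : Ideal (K ⊗[k] B₀), H491.IsHilb g I' ∧
      Submodule.span (K ⊗[k] B₀) {s.1} =
        (I' * H11.ptIdeal q K) • (⊤ : Submodule (K ⊗[k] B₀) G.N₀) := by
  obtain ⟨hfinN, hdegeq⟩ := hDEG2 K G n s hs.1 hgen
  haveI := G.invertible₀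
  obtain ⟨hfP, hrP⟩ := finrank_quotient_ptIdeal (K := K) hC q
  haveI : Module.Invertible (K ⊗[k] B₀) (H11.ptIdeal q K) := ptIdeal_invertible_field hC q
  have hle : Submodule.span (K ⊗[k] B₀) {s.1} ≤
      H11.ptIdeal q K • (⊤ : Submodule (K ⊗[k] B₀) G.N₀) :=
    (Submodule.span_singleton_le_iff_mem _ _).2 hs.2
  have hM' := H671.submodule_eq_colon_mul_smul_top hle
  set I' : Ideal (K ⊗[k] B₀) := (Submodule.span (K ⊗[k] B₀) {s.1}).colon
    ((H11.ptIdeal q K • (⊤ : Submodule (K ⊗[k] B₀) G.N₀) : Submodule (K ⊗[k] B₀) G.N₀) :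
      Set G.N₀) with hI'
  refine ⟨I', ?_, hM'⟩
  -- dimensions
  have hN : Module.finrank K (G.N₀ ⧸ Submodule.span (K ⊗[k] B₀) {s.1}) = m + g := by
    rw [hdeg] at hdegeq
    have : (Module.finrank K (G.N₀ ⧸ Submodule.span (K ⊗[k] B₀) {s.1}) : ℤ) =
        ((m + g : ℕ) : ℤ) := by
      rw [hnum]; linarith
    exact_mod_cast this
  haveI hfinN' : Module.Finite K
      (G.N₀ ⧸ ((I' * H11.ptIdeal q K) • (⊤ : Submodule (K ⊗[k] B₀) G.N₀))) := by
    rw [← hM']; exact hfinN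
  haveI hfinIP : Module.Finite K ((K ⊗[k] B₀) ⧸ (I' * H11.ptIdeal q K)) :=
    finite_quotient_of_finite_quotient_smul_top (N := G.N₀) (I' * H11.ptIdeal q K)
  obtain ⟨-, hrankIP⟩ := finrank_quotient_smul_top_invertible (K := K) (N := G.N₀)
    (I' * H11.ptIdeal q K)
  have hleI : I' * H11.ptIdeal q K ≤ I' := Ideal.mul_le_left
  haveI hfinI : Module.Finite K ((K ⊗[k] B₀) ⧸ I') :=
    Module.Finite.of_surjective (Ideal.Quotient.factorₐ K hleI).toLinearMap
      (Ideal.Quotient.factor_surjective hleI)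
  obtain ⟨-, hadd⟩ := finrank_quotient_mul_invertible (K := K) I' (H11.ptIdeal q K)
  have hg : Module.finrank K ((K ⊗[k] B₀) ⧸ I') = g := by
    have h1 : Module.finrank K
        (G.N₀ ⧸ ((I' * H11.ptIdeal q K) • (⊤ : Submodule (K ⊗[k] B₀) G.N₀))) = m + g := by
      rw [← hM']; exact hN
    rw [hrankIP, hadd, hrP] at h1
    omega
  refine ⟨hfinI, inferInstance, fun p => ?_⟩
  rw [Module.rankAtStalk_eq_finrank_of_free]
  simp [hg]

/-- **COV2**: over a field, a gluing datum of degree `0` with `P2` lies in some Hilbert chart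
`β`, i.e. has `P3`. -/
theorem cov2 (hC : IsCurveChart k B₀ B₁ B₀₁ x y e)
    (hDEG2 : ∀ (K : Type u) [Field K] [Algebra k K] (G : CurveGD k B₀ B₁ B₀₁ K) (n : ℕ)
      (s : G.N₀ × G.N₁), s ∈ H11.sec x n G → H11.GenModY y G s.2 →
      Module.Finite K (G.N₀ ⧸ Submodule.span (K ⊗[k] B₀) {s.1}) ∧
        G.degree = (Module.finrank K (G.N₀ ⧸ Submodule.span (K ⊗[k] B₀) {s.1}) : ℤ) -
          (n * Module.finrank k (B₁ ⧸ Ideal.span {y}) : ℕ))
    {n m g : ℕ} (q : Fin m → (B₀ →ₐ[k] k))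
    (hnum : m + g = n * Module.finrank k (B₁ ⧸ Ideal.span {y}))
    (G : CurveGD k B₀ B₁ B₀₁ K) (hdeg : G.degree = 0) (h2 : H11.P2 x y n q G) :
    ∃ β : Fin g → B₀, H11.P3 x y n q β G := by
  obtain ⟨h1, s, hs⟩ := h2
  obtain ⟨I', hI', hspan⟩ := core_field hC hDEG2 q hnum G hdeg s hs.mem hs.gen
  obtain ⟨β, hβ⟩ := H491.exists_isChart_of_isLocalRing hI'
  exact ⟨β, h1, s, hs, I', hβ, hspan⟩

end Fermat.Agent.S25.H911
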