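import Fermat.Agent.S25.H911.AlgDefCore

/-!
# S25 / block ALGDEF (helper911): `Stmt.AlgDef`

Gluing data on `C_A` lift along square-zero (more generally nilpotent) thickenings
`A → A ⧸ I`: the frozen statement `Stmt.AlgDef k B₀ B₁ B₀₁` of `DefsAlg.lean`, unconditionally
(no hypothesis on the chart is used).
-/

set_option autoImplicit false
set_option linter.style.haveILetI false

universe u

open scoped TensorProduct

namespace Fermat.Agent.S25.H911

open Fermat.Agent.S25

section TensorMapLeft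

variable (k : Type u) [Field k] {A A' : Type u} [CommRing A] [Algebra k A] [CommRing A']
  [Algebra k A'] (φ : A →ₐ[k] A')

theorem tensorMapLeft_tmul (B : Type u) [CommRing B] [Algebra k B] (a : A) (b : B) :
    tensorMapLeft k φ B (a ⊗ₜ[k] b) = φ a ⊗ₜ[k] b :=
  rfl

theorem tensorMapLeft_surjective (hφ : Function.Surjective φ) (B : Type u) [CommRing B]
    [Algebra k B] : Function.Surjective (tensorMapLeft k φ B) :=
  Algebra.TensorProduct.map_surjective φ (AlgHom.id k B) hφ Function.surjective_id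

theorem tensorMapLeft_ker (hφ : Function.Surjective φ) (B : Type u) [CommRing B]
    [Algebra k B] :
    RingHom.ker (tensorMapLeft k φ B) =
      (RingHom.ker φ).map (Algebra.TensorProduct.includeLeft : A →ₐ[k] A ⊗[k] B) :=
  Algebra.TensorProduct.rTensor_ker φ hφ

/-- The kernel of `A ⊗ B → A' ⊗ B` is nil if the kernel of `A → A'` is nilpotent. -/
theorem tensorMapLeft_ker_nil (hφ : Function.Surjective φ) {n : ℕ}
    (hn : RingHom.ker φ ^ n = ⊥) (B : Type u) [CommRing B] [Algebra k B] :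
    ∀ x ∈ RingHom.ker (tensorMapLeft k φ B), IsNilpotent x := by
  intro x hx
  rw [tensorMapLeft_ker k φ hφ B] at hx
  refine ⟨n, ?_⟩
  have h1 : x ^ n ∈ ((RingHom.ker φ).map
      (Algebra.TensorProduct.includeLeft : A →ₐ[k] A ⊗[k] B)) ^ n := Ideal.pow_mem_pow hx n
  have h2 : ((RingHom.ker φ).map
      (Algebra.TensorProduct.includeLeft : A →ₐ[k] A ⊗[k] B)) ^ n = ⊥ := by
    have := Ideal.map_pow (Algebra.TensorProduct.includeLeft : A →ₐ[k] A ⊗[k] B).toRingHom
      (RingHom.ker φ) n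
    rw [hn, Ideal.map_bot] at this
    exact this.symm
  rw [h2] at h1
  exact h1

/-- The base-change maps `A ⊗ B → A' ⊗ B` form a morphism of cospans. -/
theorem tensorMapLeft_comp_algebraMap (B B' : Type u) [CommRing B] [CommRing B'] [Algebra k B]
    [Algebra k B'] [Algebra B B'] [IsScalarTower k B B'] :
    (tensorMapLeft k φ B').comp (algebraMap (A ⊗[k] B) (A ⊗[k] B')) =
      (algebraMap (A' ⊗[k] B) (A' ⊗[k] B')).comp (tensorMapLeft k φ B) := by
  apply RingHom.ext
  intro z
  induction z using TensorProduct.induction_on with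
  | zero => simp
  | tmul a b => rfl
  | add x y hx hy => rw [map_add, map_add, hx, hy]

end TensorMapLeft

section AlgDef

variable (k : Type u) [Field k]
variable (B₀ B₁ B₀₁ : Type u) [CommRing B₀] [CommRing B₁] [CommRing B₀₁]
  [Algebra k B₀] [Algebra k B₁] [Algebra k B₀₁] [Algebra B₀ B₀₁] [Algebra B₁ B₀₁]
  [IsScalarTower k B₀ B₀₁] [IsScalarTower k B₁ B₀₁]

/-- Gluing data lift along any surjection `φ : A → A'` of `k`-algebras with nilpotent
kernel. -/
theorem exists_curveGD_isBC_of_nilpotent {A A' : Type u} [CommRing A] [Algebra k A]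
    [CommRing A'] [Algebra k A'] (φ : A →ₐ[k] A') (hφ : Function.Surjective φ) {n : ℕ}
    (hn : RingHom.ker φ ^ n = ⊥) (G₀ : CurveGD k B₀ B₁ B₀₁ A') :
    ∃ G : CurveGD k B₀ B₁ B₀₁ A, CurveGD.IsBC φ G G₀ :=
  exists_isBC_of_nil (tensorMapLeft k φ B₀) (tensorMapLeft k φ B₁) (tensorMapLeft k φ B₀₁)
    (tensorMapLeft_comp_algebraMap k φ B₀ B₀₁) (tensorMapLeft_comp_algebraMap k φ B₁ B₀₁)
    (tensorMapLeft_surjective k φ hφ B₀) (tensorMapLeft_ker_nil k φ hφ hn B₀)
    (tensorMapLeft_surjective k φ hφ B₁) (tensorMapLeft_ker_nil k φ hφ hn B₁)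
    (tensorMapLeft_surjective k φ hφ B₀₁) (tensorMapLeft_ker_nil k φ hφ hn B₀₁) G₀

/-- **ALGDEF.** The frozen statement `Stmt.AlgDef`. -/
theorem algDef : Stmt.AlgDef k B₀ B₁ B₀₁ := by
  intro x y e _ A _ _ I hI G₀
  refine exists_curveGD_isBC_of_nilpotent k B₀ B₁ B₀₁ (Ideal.Quotient.mkₐ k I)
    (Ideal.Quotient.mkₐ_surjective k I) (n := 2) ?_ G₀
  have : RingHom.ker (Ideal.Quotient.mkₐ k I) = I := Ideal.Quotient.mkₐ_ker k I
  rw [this, hI]

end AlgDef

end Fermat.Agent.S25.H911
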