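import Fermat.Agent.S25.H911.GDCSquare
import Fermat.Agent.S25.H911.AlgDef
import Fermat.Agent.S25.H971.GlueLift

/-!
# S25 / block GDC (helper911): the calculus of gluing data

Pure algebra on the frozen `GlueDatum`, `GlueDatum.IsBC`, `CurveGD.IsBC` of `DefsAlg.lean`.

* `exists_glueDatum_baseChange` : base changes of gluing data exist along every morphism of
  cospans; `curveGD_exists_isBC` is the curve case (`AlgBCExists` / `BCExists`).
* `glueDatum_isBC_comp`, `curveGD_isBC_comp` : base changes compose (`BCComp`).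
* `glueDatum_isBC_refl`, `curveGD_isBC_id` : identity (`BCId`).
* `curveGD_rigidifiable_of_isBC` : rigidifiability is stable under base change (`BCRig`).
* `glueDatum_degree_eq_of_isIso` : the degree is invariant under isomorphism (`DegIso`).
-/

set_option autoImplicit false
set_option linter.style.haveILetI false

universe u

open scoped TensorProduct

namespace Fermat.Agent.S25.H911

open Fermat.Agent.S25

section Cospan

variable {A R₀ R₁ R₀₁ : Type u} [CommRing A] [CommRing R₀] [CommRing R₁]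
    [CommRing R₀₁] [Algebra A R₀] [Algebra A R₁] [Algebra A R₀₁] [Algebra R₀ R₀₁]
    [Algebra R₁ R₀₁] [IsScalarTower A R₀ R₀₁] [IsScalarTower A R₁ R₀₁]
    {A' R₀' R₁' R₀₁' : Type u} [CommRing A'] [CommRing R₀'] [CommRing R₁']
    [CommRing R₀₁'] [Algebra A' R₀'] [Algebra A' R₁'] [Algebra A' R₀₁'] [Algebra R₀' R₀₁']
    [Algebra R₁' R₀₁'] [IsScalarTower A' R₀' R₀₁'] [IsScalarTower A' R₁' R₀₁']
    {A'' R₀'' R₁'' R₀₁'' : Type u} [CommRing A''] [CommRing R₀''] [CommRing R₁'']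
    [CommRing R₀₁''] [Algebra A'' R₀''] [Algebra A'' R₁''] [Algebra A'' R₀₁'']
    [Algebra R₀'' R₀₁''] [Algebra R₁'' R₀₁''] [IsScalarTower A'' R₀'' R₀₁'']
    [IsScalarTower A'' R₁'' R₀₁'']

/-- **Base changes of gluing data exist** along every morphism of cospans. -/
theorem exists_glueDatum_baseChange (ρ₀ : R₀ →+* R₀') (ρ₁ : R₁ →+* R₁') (ρ₀₁ : R₀₁ →+* R₀₁')
    (h₀ : ρ₀₁.comp (algebraMap R₀ R₀₁) = (algebraMap R₀' R₀₁').comp ρ₀)
    (h₁ : ρ₀₁.comp (algebraMap R₁ R₀₁) = (algebraMap R₁' R₀₁').comp ρ₁)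
    (G : GlueDatum A R₀ R₁ R₀₁) :
    ∃ G' : GlueDatum A' R₀' R₁' R₀₁', GlueDatum.IsBC ρ₀ ρ₁ ρ₀₁ G G' := by
  obtain ⟨N₀', _, _, b₀, hb₀, hi₀⟩ := exists_semilinear_baseChange ρ₀ G.N₀
  obtain ⟨N₁', _, _, b₁, hb₁, hi₁⟩ := exists_semilinear_baseChange ρ₁ G.N₁
  obtain ⟨N₀₁', _, _, c, hc, -⟩ := exists_semilinear_baseChange ρ₀₁ G.N₀₁
  letI mL : Module R₀' N₀₁' := Module.compHom N₀₁' (algebraMap R₀' R₀₁')
  haveI tL : IsScalarTower R₀' R₀₁' N₀₁' := ⟨fun r s n => by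
    change (r • s) • n = algebraMap R₀' R₀₁' r • (s • n)
    rw [Algebra.smul_def, mul_smul]⟩
  letI mR : Module R₁' N₀₁' := Module.compHom N₀₁' (algebraMap R₁' R₀₁')
  haveI tR : IsScalarTower R₁' R₀₁' N₀₁' := ⟨fun r s n => by
    change (r • s) • n = algebraMap R₁' R₀₁' r • (s • n)
    rw [Algebra.smul_def, mul_smul]⟩
  obtain ⟨r₀', hr₀', hr₀c⟩ :=
    exists_linear_square ρ₀ ρ₀₁ h₀ G.r₀ G.isBaseChange₀ b₀ hb₀ c hc
  obtain ⟨r₁', hr₁', hr₁c⟩ :=
    exists_linear_square ρ₁ ρ₀₁ h₁ G.r₁ G.isBaseChange₁ b₁ hb₁ c hc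
  refine ⟨H971.glueDatumOfModules A' N₀' N₁' N₀₁' r₀' r₁' hr₀' hr₁' (hi₀ G.invertible₀)
    (hi₁ G.invertible₁), ⟨?_⟩⟩
  exact
    { b₀ := b₀
      b₁ := b₁
      b₀₁ := c
      comm₀ := fun s => (hr₀c s).symm
      comm₁ := fun s => (hr₁c s).symm
      isBaseChange₀ := hb₀
      isBaseChange₁ := hb₁
      isBaseChange₀₁ := hc }

/-- Composition of semilinear maps over a composite ring homomorphism (by hand, avoiding
`RingHomCompTriple`). -/
def semilinearComp {R S T : Type u} [CommRing R] [CommRing S] [CommRing T]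
    {N N' N'' : Type u} [AddCommGroup N] [Module R N] [AddCommGroup N'] [Module S N']
    [AddCommGroup N''] [Module T N''] (ρ : R →+* S) (ρ' : S →+* T) (σ : R →+* T)
    (hσ : σ = ρ'.comp ρ) (b : N →ₛₗ[ρ] N') (b' : N' →ₛₗ[ρ'] N'') : N →ₛₗ[σ] N'' where
  toFun n := b' (b n)
  map_add' m n := by rw [map_add, map_add]
  map_smul' r n := by
    subst hσ
    rw [LinearMap.map_smulₛₗ, LinearMap.map_smulₛₗ]; rfl

/-- **Base changes of gluing data compose.** -/
theorem glueDatum_isBC_comp (ρ₀ : R₀ →+* R₀') (ρ₁ : R₁ →+* R₁') (ρ₀₁ : R₀₁ →+* R₀₁')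
    (ρ₀' : R₀' →+* R₀'') (ρ₁' : R₁' →+* R₁'') (ρ₀₁' : R₀₁' →+* R₀₁'')
    (σ₀ : R₀ →+* R₀'') (σ₁ : R₁ →+* R₁'') (σ₀₁ : R₀₁ →+* R₀₁'')
    (hσ₀ : σ₀ = ρ₀'.comp ρ₀) (hσ₁ : σ₁ = ρ₁'.comp ρ₁) (hσ₀₁ : σ₀₁ = ρ₀₁'.comp ρ₀₁)
    {G : GlueDatum A R₀ R₁ R₀₁} {G' : GlueDatum A' R₀' R₁' R₀₁'}
    {G'' : GlueDatum A'' R₀'' R₁'' R₀₁''}
    (h : GlueDatum.IsBC ρ₀ ρ₁ ρ₀₁ G G') (h' : GlueDatum.IsBC ρ₀' ρ₁' ρ₀₁' G' G'') :
    GlueDatum.IsBC σ₀ σ₁ σ₀₁ G G'' := by
  obtain ⟨m⟩ := h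
  obtain ⟨m'⟩ := h'
  exact ⟨
    { b₀ := semilinearComp ρ₀ ρ₀' σ₀ hσ₀ m.b₀ m'.b₀
      b₁ := semilinearComp ρ₁ ρ₁' σ₁ hσ₁ m.b₁ m'.b₁
      b₀₁ := semilinearComp ρ₀₁ ρ₀₁' σ₀₁ hσ₀₁ m.b₀₁ m'.b₀₁
      comm₀ := fun s => by
        change m'.b₀₁ (m.b₀₁ (G.r₀ s)) = G''.r₀ (m'.b₀ (m.b₀ s))
        rw [m.comm₀, m'.comm₀]
      comm₁ := fun s => by
        change m'.b₀₁ (m.b₀₁ (G.r₁ s)) = G''.r₁ (m'.b₁ (m.b₁ s))
        rw [m.comm₁, m'.comm₁]
      isBaseChange₀ := isSemilinearBaseChange_comp ρ₀ ρ₀' σ₀ hσ₀ m.b₀ m'.b₀ _ (fun _ => rfl)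
        m.isBaseChange₀ m'.isBaseChange₀
      isBaseChange₁ := isSemilinearBaseChange_comp ρ₁ ρ₁' σ₁ hσ₁ m.b₁ m'.b₁ _ (fun _ => rfl)
        m.isBaseChange₁ m'.isBaseChange₁
      isBaseChange₀₁ := isSemilinearBaseChange_comp ρ₀₁ ρ₀₁' σ₀₁ hσ₀₁ m.b₀₁ m'.b₀₁ _
        (fun _ => rfl) m.isBaseChange₀₁ m'.isBaseChange₀₁ }⟩

/-- The identity, as a semilinear map over a ring endomorphism which is the identity. -/
def semilinearRefl {R : Type u} [CommRing R] {N : Type u} [AddCommGroup N] [Module R N]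
    (ρ : R →+* R) (hρ : ρ = RingHom.id R) : N →ₛₗ[ρ] N where
  toFun n := n
  map_add' _ _ := rfl
  map_smul' r n := by subst hρ; rfl

/-- A bijective semilinear map over a surjective ring homomorphism is a semilinear base
change. -/
theorem isSemilinearBaseChange_of_bijective_of_surjective {R R' : Type u} [CommRing R]
    [CommRing R'] (ρ : R →+* R') (hρ : Function.Surjective ρ) {N N' : Type u} [AddCommGroup N]
    [Module R N] [AddCommGroup N'] [Module R' N'] (b : N →ₛₗ[ρ] N')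
    (hb : Function.Bijective b) : IsSemilinearBaseChange ρ b := by
  rw [isSemilinearBaseChange_iff]
  letI : Algebra R R' := ρ.toAlgebra
  letI : Module R N' := Module.compHom N' ρ
  haveI : IsScalarTower R R' N' := ⟨fun r r' n => by
    change (ρ r * r') • n = ρ r • (r' • n); rw [mul_smul]⟩
  apply IsBaseChange.of_lift_unique
  intro Q _ _ _ _ g
  let bl : N →ₗ[R] N' :=
    { toFun := fun n => b n
      map_add' := fun m n => b.map_add m n
      map_smul' := fun r n => LinearMap.map_smulₛₗ b r n }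
  have hbl : Function.Bijective bl := hb
  let e : N ≃ₗ[R] N' := LinearEquiv.ofBijective bl hbl
  have he : ∀ m, e.symm (bl m) = m := fun m => e.symm_apply_apply m
  refine ⟨{ toFun := fun n => g (e.symm n)
            map_add' := fun a b => by rw [map_add, map_add]
            map_smul' := ?_ }, ?_, ?_⟩
  · intro s n
    obtain ⟨r, rfl⟩ := hρ s
    simp only [RingHom.id_apply]
    have h1 : ρ r • n = r • n := rfl
    have h2 : ρ r • g (e.symm n) = r • g (e.symm n) := (algebraMap_smul R' r _)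
    rw [h1, h2, map_smul, map_smul]
  · ext m
    change g (e.symm (bl m)) = g m
    rw [he]
  · intro g' hg'
    ext n
    obtain ⟨m, rfl⟩ := hbl.2 n
    have := congrFun (congrArg DFunLike.coe hg') m
    change g' (bl m) = g (e.symm (bl m))
    rw [he]
    exact this

theorem isSemilinearBaseChange_semilinearRefl {R : Type u} [CommRing R] {N : Type u}
    [AddCommGroup N] [Module R N] (ρ : R →+* R) (hρ : ρ = RingHom.id R) :
    IsSemilinearBaseChange ρ (semilinearRefl (N := N) ρ hρ) :=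
  isSemilinearBaseChange_of_bijective_of_surjective ρ (by subst hρ; exact fun r => ⟨r, rfl⟩) _
    ⟨fun _ _ h => h, fun n => ⟨n, rfl⟩⟩

/-- **Every gluing datum is a base change of itself** along (maps equal to) the identity. -/
theorem glueDatum_isBC_refl (ρ₀ : R₀ →+* R₀) (ρ₁ : R₁ →+* R₁) (ρ₀₁ : R₀₁ →+* R₀₁)
    (h₀ : ρ₀ = RingHom.id R₀) (h₁ : ρ₁ = RingHom.id R₁) (h₀₁ : ρ₀₁ = RingHom.id R₀₁)
    (G : GlueDatum A R₀ R₁ R₀₁) : GlueDatum.IsBC ρ₀ ρ₁ ρ₀₁ G G :=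
  ⟨{ b₀ := semilinearRefl ρ₀ h₀
     b₁ := semilinearRefl ρ₁ h₁
     b₀₁ := semilinearRefl ρ₀₁ h₀₁
     comm₀ := fun _ => rfl
     comm₁ := fun _ => rfl
     isBaseChange₀ := isSemilinearBaseChange_semilinearRefl ρ₀ h₀
     isBaseChange₁ := isSemilinearBaseChange_semilinearRefl ρ₁ h₁
     isBaseChange₀₁ := isSemilinearBaseChange_semilinearRefl ρ₀₁ h₀₁ }⟩

end Cospan

section Degree

variable {K R₀ R₁ R₀₁ : Type u} [Field K] [CommRing R₀] [CommRing R₁]
    [CommRing R₀₁] [Algebra K R₀] [Algebra K R₁] [Algebra K R₀₁] [Algebra R₀ R₀₁]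
    [Algebra R₁ R₀₁] [IsScalarTower K R₀ R₀₁] [IsScalarTower K R₁ R₀₁]

/-- Isomorphic gluing data have isomorphic `Ȟ⁰` and `Ȟ¹`. -/
theorem glueDatum_finrank_eq_of_isIso {G G' : GlueDatum K R₀ R₁ R₀₁} (h : G.IsIso G') :
    Module.finrank K G.H0 = Module.finrank K G'.H0 ∧
      Module.finrank K G.H1 = Module.finrank K G'.H1 := by
  obtain ⟨i⟩ := h
  let E : (G.N₀ × G.N₁) ≃ₗ[K] (G'.N₀ × G'.N₁) :=
    (i.e₀.restrictScalars K).prodCongr (i.e₁.restrictScalars K)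
  let E₀₁ : G.N₀₁ ≃ₗ[K] G'.N₀₁ := i.e₀₁.restrictScalars K
  have hcomm : ∀ x, G'.cech (E x) = E₀₁ (G.cech x) := by
    rintro ⟨s₀, s₁⟩
    change G'.r₀ (i.e₀ s₀) + -(G'.r₁ (i.e₁ s₁)) = i.e₀₁ (G.r₀ s₀ + -(G.r₁ s₁))
    rw [map_add, map_neg, i.comm₀, i.comm₁]
  constructor
  · refine LinearEquiv.finrank_eq (E.ofSubmodules _ _ ?_)
    ext y
    simp only [Submodule.mem_map, LinearMap.mem_ker]
    constructor
    · rintro ⟨x, hx, rfl⟩
      change G'.cech (E x) = 0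
      rw [hcomm, hx, map_zero]
    · intro hy
      refine ⟨E.symm y, ?_, E.apply_symm_apply y⟩
      have := hcomm (E.symm y)
      rw [E.apply_symm_apply, hy] at this
      exact (E₀₁.map_eq_zero_iff).1 this.symm
  · refine LinearEquiv.finrank_eq (Submodule.Quotient.equiv _ _ E₀₁ ?_)
    ext y
    simp only [Submodule.mem_map, LinearMap.mem_range]
    constructor
    · rintro ⟨_, ⟨x, rfl⟩, rfl⟩
      exact ⟨E x, hcomm x⟩
    · rintro ⟨x, rfl⟩
      refine ⟨G.cech (E.symm x), ⟨_, rfl⟩, ?_⟩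
      have := hcomm (E.symm x)
      rw [E.apply_symm_apply] at this
      exact this.symm

/-- **The degree is invariant under isomorphism** of gluing data. -/
theorem glueDatum_degree_eq_of_isIso {G G' : GlueDatum K R₀ R₁ R₀₁} (h : G.IsIso G') :
    G.degree = G'.degree := by
  obtain ⟨h0, h1⟩ := glueDatum_finrank_eq_of_isIso h
  unfold GlueDatum.degree GlueDatum.euler
  rw [h0, h1]

end Degree

section Curve

variable {k : Type u} [Field k] {B₀ B₁ B₀₁ : Type u} [CommRing B₀] [CommRing B₁] [CommRing B₀₁]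
  [Algebra k B₀] [Algebra k B₁] [Algebra k B₀₁] [Algebra B₀ B₀₁] [Algebra B₁ B₀₁]
  [IsScalarTower k B₀ B₀₁] [IsScalarTower k B₁ B₀₁]
  {A A' A'' : Type u} [CommRing A] [Algebra k A] [CommRing A'] [Algebra k A'] [CommRing A'']
  [Algebra k A'']

theorem tensorMapLeft_comp (φ : A →ₐ[k] A') (ψ : A' →ₐ[k] A'') (B : Type u) [CommRing B]
    [Algebra k B] :
    tensorMapLeft k (ψ.comp φ) B = (tensorMapLeft k ψ B).comp (tensorMapLeft k φ B) := by
  apply RingHom.ext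
  intro z
  induction z using TensorProduct.induction_on with
  | zero => simp
  | tmul a b => rfl
  | add x y hx hy => rw [map_add, map_add, hx, hy]

theorem tensorMapLeft_id (B : Type u) [CommRing B] [Algebra k B] :
    tensorMapLeft k (AlgHom.id k A) B = RingHom.id (A ⊗[k] B) := by
  apply RingHom.ext
  intro z
  induction z using TensorProduct.induction_on with
  | zero => simp
  | tmul a b => rfl
  | add x y hx hy => rw [map_add, map_add, hx, hy]

theorem epsHom_apply_tmul (e : B₁ →ₐ[k] k) (a : A) (b : B₁) :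
    epsHom e A (a ⊗ₜ[k] b) = a * algebraMap k A (e b) := by
  simp [epsHom, Algebra.ofId_apply]

/-- The marked point is compatible with base change. -/
theorem epsHom_tensorMapLeft (e : B₁ →ₐ[k] k) (φ : A →ₐ[k] A') :
    φ.toRingHom.comp (epsHom e A).toRingHom =
      (epsHom e A').toRingHom.comp (tensorMapLeft k φ B₁) := by
  refine RingHom.ext fun z => ?_
  induction z using TensorProduct.induction_on with
  | zero => simp
  | tmul a b =>
    change φ (epsHom e A (a ⊗ₜ[k] b)) = epsHom e A' (tensorMapLeft k φ B₁ (a ⊗ₜ[k] b))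
    rw [tensorMapLeft_tmul, epsHom_apply_tmul, epsHom_apply_tmul, map_mul, AlgHom.commutes]
  | add x y hx hy => rw [map_add, map_add, hx, hy]

/-- **GDC, existence**: base changes of gluing data on `C_A` exist. -/
theorem curveGD_exists_isBC (φ : A →ₐ[k] A') (G : CurveGD k B₀ B₁ B₀₁ A) :
    ∃ G' : CurveGD k B₀ B₁ B₀₁ A', CurveGD.IsBC φ G G' :=
  exists_glueDatum_baseChange (tensorMapLeft k φ B₀) (tensorMapLeft k φ B₁)
    (tensorMapLeft k φ B₀₁) (tensorMapLeft_comp_algebraMap k φ B₀ B₀₁)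
    (tensorMapLeft_comp_algebraMap k φ B₁ B₀₁) G

/-- **GDC, composition**: base changes of gluing data on `C_A` compose. -/
theorem curveGD_isBC_comp (φ : A →ₐ[k] A') (ψ : A' →ₐ[k] A'') {G : CurveGD k B₀ B₁ B₀₁ A}
    {G' : CurveGD k B₀ B₁ B₀₁ A'} {G'' : CurveGD k B₀ B₁ B₀₁ A''}
    (h : CurveGD.IsBC φ G G') (h' : CurveGD.IsBC ψ G' G'') : CurveGD.IsBC (ψ.comp φ) G G'' :=
  glueDatum_isBC_comp _ _ _ _ _ _ _ _ _ (tensorMapLeft_comp φ ψ B₀) (tensorMapLeft_comp φ ψ B₁)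
    (tensorMapLeft_comp φ ψ B₀₁) h h'

/-- **GDC, identity**: every gluing datum is a base change of itself along the identity. -/
theorem curveGD_isBC_id (G : CurveGD k B₀ B₁ B₀₁ A) : CurveGD.IsBC (AlgHom.id k A) G G :=
  glueDatum_isBC_refl _ _ _ (tensorMapLeft_id B₀) (tensorMapLeft_id B₁) (tensorMapLeft_id B₀₁) G

/-- **GDC, rigidifiability** is stable under base change. -/
theorem curveGD_rigidifiable_of_isBC (e : B₁ →ₐ[k] k) (φ : A →ₐ[k] A')
    {G : CurveGD k B₀ B₁ B₀₁ A} {G' : CurveGD k B₀ B₁ B₀₁ A'} (h : CurveGD.IsBC φ G G')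
    (hr : G.Rigidifiable e) : G'.Rigidifiable e := by
  obtain ⟨m⟩ := h
  obtain ⟨b, hb⟩ := hr
  obtain ⟨r', hr', -⟩ := exists_semilinear_square (epsHom e A).toRingHom
    (tensorMapLeft k φ B₁) φ.toRingHom (epsHom e A').toRingHom (epsHom_tensorMapLeft e φ)
    b hb m.b₁ m.isBaseChange₁ _ (isSemilinearBaseChange_self φ.toRingHom)
  exact ⟨r', hr'⟩

/-- **GDC, degree**: over a field, isomorphic gluing data on `C_K` have the same degree. -/
theorem curveGD_degree_eq_of_isIso {K : Type u} [Field K] [Algebra k K]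
    {G G' : CurveGD k B₀ B₁ B₀₁ K} (h : G.IsIso G') : G.degree = G'.degree :=
  glueDatum_degree_eq_of_isIso h

end Curve

end Fermat.Agent.S25.H911
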