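import Fermat.Agent.S25.H11.ACDefs
import Fermat.Agent.S25.H911.GDCBase

/-!
# S25 / ALGCHARTS, COV3 (helper911): a section which generates `N₁` modulo `y` rigidifies

`rigidifiable_of_genModY` : if `b : G.N₁` generates `N₁` modulo `y` (`H11.GenModY y G b`) and the
marked point `e` lies on `E₀ = {y = 0}` (`e y = 0`), then `G` is rigidifiable along `e`:
`e^* N₁` is an invertible `A`-module generated by the image of `b`, hence free on it.
-/

set_option autoImplicit false
set_option linter.style.haveILetI false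

universe u

open scoped TensorProduct

namespace Fermat.Agent.S25.H911

open Fermat.Agent.S25

variable {k : Type u} [Field k] {B₀ B₁ B₀₁ : Type u} [CommRing B₀] [CommRing B₁] [CommRing B₀₁]
  [Algebra k B₀] [Algebra k B₁] [Algebra k B₀₁] [Algebra B₀ B₀₁] [Algebra B₁ B₀₁]
  [IsScalarTower k B₀ B₀₁] [IsScalarTower k B₁ B₀₁]

/-- An invertible module `N` over `R`, a ring map `ε : R → A`, and `b : N` which generates `N`
modulo an element `t` with `ε t = 0`: then `ε^* N` is free on the image of `b`. -/
theorem exists_semilinear_trivialisation_of_gen {R A : Type u} [CommRing R] [CommRing A]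
    (ε : R →+* A) {N : Type u} [AddCommGroup N] [Module R N]
    [Module.Invertible R N] (t : R) (ht : ε t = 0) (b : N)
    (hb : ∀ c : N, ∃ r : R, c - r • b ∈ (Ideal.span {t} • ⊤ : Submodule R N)) :
    ∃ f : N →ₛₗ[ε] A, IsSemilinearBaseChange ε f ∧ f b = 1 := by
  letI : Algebra R A := ε.toAlgebra
  have halg : ∀ r : R, algebraMap R A r = ε r := fun _ => rfl
  -- the generator
  let g : A →ₗ[A] A ⊗[R] N := LinearMap.toSpanSingleton A (A ⊗[R] N) ((1 : A) ⊗ₜ[R] b)
  have h1 : ∀ c : N, ∃ a : A, (1 : A) ⊗ₜ[R] c = a • ((1 : A) ⊗ₜ[R] b) := by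
    intro c
    obtain ⟨r, hr⟩ := hb c
    rw [Submodule.ideal_span_singleton_smul, Submodule.mem_smul_pointwise_iff_exists] at hr
    obtain ⟨n, -, hn⟩ := hr
    refine ⟨ε r, ?_⟩
    have hc : c = r • b + t • n := by rw [hn]; abel
    have h2 : (1 : A) ⊗ₜ[R] (t • n) = 0 := by
      rw [TensorProduct.tmul_smul, TensorProduct.smul_tmul', Algebra.smul_def, halg, ht,
        zero_mul, TensorProduct.zero_tmul]
    have h3 : (1 : A) ⊗ₜ[R] (r • b) = ε r • ((1 : A) ⊗ₜ[R] b) := by
      rw [TensorProduct.tmul_smul, TensorProduct.smul_tmul', TensorProduct.smul_tmul',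
        Algebra.smul_def, halg, smul_eq_mul]
    rw [hc, TensorProduct.tmul_add, h2, add_zero, h3]
  have hg : Function.Surjective g := by
    intro z
    induction z using TensorProduct.induction_on with
    | zero => exact ⟨0, map_zero _⟩
    | tmul a c =>
      obtain ⟨a', ha'⟩ := h1 c
      refine ⟨a * a', ?_⟩
      change (a * a') • ((1 : A) ⊗ₜ[R] b) = a ⊗ₜ[R] c
      rw [mul_smul, ← ha', TensorProduct.smul_tmul', smul_eq_mul, mul_one]
    | add z w hz hw =>
      obtain ⟨a, ha⟩ := hz
      obtain ⟨a', ha'⟩ := hw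
      exact ⟨a + a', by rw [map_add, ha, ha']⟩
  have hbij : Function.Bijective g := Module.Invertible.bijective_of_surjective hg
  let φ : A ≃ₗ[A] A ⊗[R] N := LinearEquiv.ofBijective g hbij
  have hφ1 : φ 1 = (1 : A) ⊗ₜ[R] b := by
    change (1 : A) • ((1 : A) ⊗ₜ[R] b) = _
    rw [one_smul]
  refine ⟨{ toFun := fun n => φ.symm ((1 : A) ⊗ₜ[R] n)
            map_add' := fun m n => by rw [TensorProduct.tmul_add, map_add]
            map_smul' := fun r n => by
              have h3 : (1 : A) ⊗ₜ[R] (r • n) = ε r • ((1 : A) ⊗ₜ[R] n) := by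
                rw [TensorProduct.tmul_smul, TensorProduct.smul_tmul', TensorProduct.smul_tmul',
                  Algebra.smul_def, halg, smul_eq_mul]
              rw [h3, map_smul] }, ?_, ?_⟩
  · exact isSemilinearBaseChange_of_tensorEquiv ε _ φ.symm (fun m => rfl)
  · change φ.symm ((1 : A) ⊗ₜ[R] b) = 1
    rw [← hφ1, φ.symm_apply_apply]

/-- **COV3, rigidification**: a gluing datum with a section of `N₁` which generates modulo `y`
is rigidifiable along a marked point `e` with `e y = 0`. -/
theorem rigidifiable_of_genModY {y : B₁} {e : B₁ →ₐ[k] k} (he : e y = 0) {A : Type u}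
    [CommRing A] [Algebra k A] (G : CurveGD k B₀ B₁ B₀₁ A) (b : G.N₁)
    (hb : H11.GenModY y G b) : G.Rigidifiable e := by
  haveI := G.invertible₁
  obtain ⟨f, hf, -⟩ := exists_semilinear_trivialisation_of_gen (epsHom e A).toRingHom
    (H11.yElt k A y)
    (by
      change epsHom e A ((1 : A) ⊗ₜ[k] y) = 0
      rw [epsHom_apply_tmul, he, map_zero, mul_zero]) b hb
  exact ⟨f, hf⟩

end Fermat.Agent.S25.H911
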