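import Fermat.Agent.S25.H911.GDCSquare

/-!
# S25 / ALGCHARTS (helper911): spans and semilinear base change

For a semilinear base change `b : N →ₛₗ[ρ] N'` (frozen `IsSemilinearBaseChange`):

* `span_range_eq_top_of_isSemilinearBaseChange` : the image of `b` spans `N'`;
* `span_singleton_map_of_isSemilinearBaseChange` : `R s = J N ⇒ R' b(s) = (J R') N'`;
* `genMod_map_of_isSemilinearBaseChange` : if `s` generates `N` modulo `t` then `b s` generates
  `N'` modulo `ρ t`.
-/

set_option autoImplicit false
set_option linter.style.haveILetI false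

universe u

open scoped TensorProduct

namespace Fermat.Agent.S25.H911

open Fermat.Agent.S25

variable {R R' : Type u} [CommRing R] [CommRing R'] {ρ : R →+* R'}
  {N N' : Type u} [AddCommGroup N] [Module R N] [AddCommGroup N'] [Module R' N']

/-- Induction principle for the target of a semilinear base change. -/
theorem isSemilinearBaseChange_induction {b : N →ₛₗ[ρ] N'} (hb : IsSemilinearBaseChange ρ b)
    (motive : N' → Prop) (zero : motive 0) (base : ∀ n, motive (b n))
    (smul : ∀ (r : R') (n : N'), motive n → motive (r • n))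
    (add : ∀ n₁ n₂, motive n₁ → motive n₂ → motive (n₁ + n₂)) (x : N') : motive x := by
  rw [isSemilinearBaseChange_iff] at hb
  letI : Algebra R R' := ρ.toAlgebra
  letI : Module R N' := Module.compHom N' ρ
  haveI : IsScalarTower R R' N' := ⟨fun r r' n => by
    change (ρ r * r') • n = ρ r • (r' • n); rw [mul_smul]⟩
  exact hb.inductionOn x motive zero base smul add

/-- The image of a semilinear base change spans the target. -/
theorem span_range_eq_top_of_isSemilinearBaseChange {b : N →ₛₗ[ρ] N'}
    (hb : IsSemilinearBaseChange ρ b) : Submodule.span R' (Set.range b) = ⊤ := by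
  rw [eq_top_iff]
  rintro x -
  exact isSemilinearBaseChange_induction hb (fun x => x ∈ Submodule.span R' (Set.range b)) (Submodule.zero_mem _)
    (fun n => Submodule.subset_span ⟨n, rfl⟩) (fun r n h => Submodule.smul_mem _ r h)
    (fun _ _ h₁ h₂ => Submodule.add_mem _ h₁ h₂) x

/-- The image of `J • ⊤` under a semilinear map lies in `J.map ρ • ⊤`. -/
theorem map_mem_smul_top (b : N →ₛₗ[ρ] N') (J : Ideal R) {n : N}
    (hn : n ∈ (J • ⊤ : Submodule R N)) : b n ∈ (J.map ρ • ⊤ : Submodule R' N') := by
  refine Submodule.smul_induction_on (p := fun n => b n ∈ (J.map ρ • ⊤ : Submodule R' N')) hn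
    (fun r hr n _ => ?_) (fun x y hx hy => ?_)
  · change b (r • n) ∈ _
    rw [LinearMap.map_smulₛₗ]
    exact Submodule.smul_mem_smul (Ideal.mem_map_of_mem ρ hr) Submodule.mem_top
  · rw [map_add]
    exact Submodule.add_mem _ hx hy

/-- **Base change of a divisor of a section**: if `R s = J N` then `R' b(s) = (J R') N'`. -/
theorem span_singleton_map_of_isSemilinearBaseChange {b : N →ₛₗ[ρ] N'}
    (hb : IsSemilinearBaseChange ρ b) (J : Ideal R) (s : N)
    (hs : Submodule.span R {s} = (J • ⊤ : Submodule R N)) :
    Submodule.span R' {b s} = (J.map ρ • ⊤ : Submodule R' N') := by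
  apply le_antisymm
  · rw [Submodule.span_singleton_le_iff_mem]
    apply map_mem_smul_top b J
    rw [← hs]
    exact Submodule.mem_span_singleton_self s
  · rw [Submodule.smul_le]
    intro r' hr' n' _
    -- first for `r' = ρ j`
    have key : ∀ j ∈ J, ∀ n' : N', ρ j • n' ∈ Submodule.span R' {b s} := by
      intro j hj n'
      refine isSemilinearBaseChange_induction hb (fun n' => ρ j • n' ∈ Submodule.span R' {b s}) ?_ ?_ ?_ ?_ n'
      · rw [smul_zero]; exact Submodule.zero_mem _
      · intro n
        have h1 : j • n ∈ (J • ⊤ : Submodule R N) :=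
          Submodule.smul_mem_smul hj Submodule.mem_top
        rw [← hs, Submodule.mem_span_singleton] at h1
        obtain ⟨c, hc⟩ := h1
        rw [← LinearMap.map_smulₛₗ, ← hc, LinearMap.map_smulₛₗ]
        exact Submodule.smul_mem _ _ (Submodule.mem_span_singleton_self _)
      · intro r n h
        rw [smul_comm]
        exact Submodule.smul_mem _ r h
      · intro n₁ n₂ h₁ h₂
        rw [smul_add]
        exact Submodule.add_mem _ h₁ h₂
    refine Submodule.span_induction (p := fun r' _ => r' • n' ∈ Submodule.span R' {b s})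
      ?_ ?_ ?_ ?_ hr'
    · rintro _ ⟨j, hj, rfl⟩
      exact key j hj n'
    · rw [zero_smul]; exact Submodule.zero_mem _
    · intro x y _ _ hx hy
      rw [add_smul]
      exact Submodule.add_mem _ hx hy
    · intro a x _ hx
      rw [smul_eq_mul, mul_smul]
      exact Submodule.smul_mem _ a hx

/-- **Base change of generation modulo `t`**. -/
theorem genMod_map_of_isSemilinearBaseChange {b : N →ₛₗ[ρ] N'}
    (hb : IsSemilinearBaseChange ρ b) (t : R) (s : N)
    (hs : ∀ c : N, ∃ r : R, c - r • s ∈ (Ideal.span {t} • ⊤ : Submodule R N)) :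
    ∀ c : N', ∃ r : R', c - r • b s ∈ (Ideal.span {ρ t} • ⊤ : Submodule R' N') := by
  have hmap : (Ideal.span {t}).map ρ = Ideal.span {ρ t} := by
    rw [Ideal.map_span, Set.image_singleton]
  intro c
  refine isSemilinearBaseChange_induction hb
    (fun c => ∃ r : R', c - r • b s ∈ (Ideal.span {ρ t} • ⊤ : Submodule R' N')) ?_ ?_ ?_ ?_ c
  · exact ⟨0, by rw [zero_smul, sub_zero]; exact Submodule.zero_mem _⟩
  · intro n
    obtain ⟨r, hr⟩ := hs n
    refine ⟨ρ r, ?_⟩
    have h := map_mem_smul_top b (Ideal.span {t}) hr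
    rw [hmap, map_sub, LinearMap.map_smulₛₗ] at h
    exact h
  · rintro r n ⟨r', hr'⟩
    refine ⟨r * r', ?_⟩
    have : r • n - (r * r') • b s = r • (n - r' • b s) := by
      rw [smul_sub, mul_smul]
    rw [this]
    exact Submodule.smul_mem _ r hr'
  · rintro n₁ n₂ ⟨r₁, h₁⟩ ⟨r₂, h₂⟩
    refine ⟨r₁ + r₂, ?_⟩
    have : n₁ + n₂ - (r₁ + r₂) • b s = (n₁ - r₁ • b s) + (n₂ - r₂ • b s) := by
      rw [add_smul]; abel
    rw [this]
    exact Submodule.add_mem _ h₁ h₂

end Fermat.Agent.S25.H911
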