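import Fermat.Agent.S25.H911.ACPt
import Fermat.Agent.S25.H911.ACSpan
import Fermat.Agent.S25.H911.ACRig

/-!
# S25 / ALGCHARTS, COV3 (helper911): degree zero from the divisor of a section

`G` a gluing datum over `A`, `s ∈ sec x n G` a section of `G(n E₀)` which generates `N₁` modulo
`y` and whose divisor on `Spec (A ⊗ B₀)` is `I' * ptIdeal q A` with `I'` a Hilbert point of degree
`g` and `m + g = n d`.  Then

* `sec_map`, `genModY_map`, `span_map` : the three hypotheses are stable under base change;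
* `degree_eq_zero_of_section` : over a field, `G.degree = 0` (from DEG2);
* `deg0_of_section` : `G.Deg0`;
* `rigidifiable_and_deg0_of_section` : `G.Rigidifiable e ∧ G.Deg0`.

DEG2 (`degree_eq_of_section` of the skeleton) is an explicit hypothesis `hDEG2`, in the exact
shape of `origin/helper11:coord/S25-ALGCHARTS-skeleton.lean`.
-/

set_option autoImplicit false
set_option linter.style.haveILetI false
set_option linter.unusedSectionVars false

universe u

open scoped TensorProduct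

namespace Fermat.Agent.S25.H911

open Fermat.Agent.S25

variable {k : Type u} [Field k] {B₀ B₁ B₀₁ : Type u} [CommRing B₀] [CommRing B₁] [CommRing B₀₁]
  [Algebra k B₀] [Algebra k B₁] [Algebra k B₀₁] [Algebra B₀ B₀₁] [Algebra B₁ B₀₁]
  [IsScalarTower k B₀ B₀₁] [IsScalarTower k B₁ B₀₁] {x : B₀} {y : B₁} {e : B₁ →ₐ[k] k}

section BaseChange

variable {A A' : Type u} [CommRing A] [Algebra k A] [CommRing A'] [Algebra k A']
  {φ : A →ₐ[k] A'} {G : CurveGD k B₀ B₁ B₀₁ A} {G' : CurveGD k B₀ B₁ B₀₁ A'}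

theorem tensorMapLeft_xElt (φ : A →ₐ[k] A') (x : B₀) :
    tensorMapLeft k φ B₀₁ (H11.xElt k B₀₁ A x) = H11.xElt k B₀₁ A' x := by
  unfold H11.xElt
  rw [tensorMapLeft_tmul, map_one]

theorem tensorMapLeft_yElt (φ : A →ₐ[k] A') (y : B₁) :
    tensorMapLeft k φ B₁ (H11.yElt k A y) = H11.yElt k A' y := by
  unfold H11.yElt
  rw [tensorMapLeft_tmul, map_one]

/-- Sections of `G(n E₀)` base-change to sections. -/
theorem sec_map
    (bm : GlueDatum.BaseChangeMaps (tensorMapLeft k φ B₀) (tensorMapLeft k φ B₁)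
      (tensorMapLeft k φ B₀₁) G G') {n : ℕ} {s : G.N₀ × G.N₁} (hs : s ∈ H11.sec x n G) :
    (bm.b₀ s.1, bm.b₁ s.2) ∈ H11.sec x n G' := by
  rw [H11.mem_sec] at hs ⊢
  change G'.r₀ (bm.b₀ s.1) = H11.xElt k B₀₁ A' x ^ n • G'.r₁ (bm.b₁ s.2)
  rw [← bm.comm₀, ← bm.comm₁, hs, LinearMap.map_smulₛₗ, map_pow, tensorMapLeft_xElt]

/-- Generation modulo `y` is stable under base change. -/
theorem genModY_map
    (bm : GlueDatum.BaseChangeMaps (tensorMapLeft k φ B₀) (tensorMapLeft k φ B₁)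
      (tensorMapLeft k φ B₀₁) G G') {b : G.N₁} (hb : H11.GenModY y G b) :
    H11.GenModY y G' (bm.b₁ b) := by
  have h := genMod_map_of_isSemilinearBaseChange bm.isBaseChange₁ (H11.yElt k A y) b hb
  rw [tensorMapLeft_yElt] at h
  exact h

/-- The divisor of a section base-changes. -/
theorem span_map
    (bm : GlueDatum.BaseChangeMaps (tensorMapLeft k φ B₀) (tensorMapLeft k φ B₁)
      (tensorMapLeft k φ B₀₁) G G') {m : ℕ} (q : Fin m → (B₀ →ₐ[k] k))
    (I' : Ideal (A ⊗[k] B₀)) {a : G.N₀}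
    (ha : Submodule.span (A ⊗[k] B₀) {a} =
      (I' * H11.ptIdeal q A) • (⊤ : Submodule (A ⊗[k] B₀) G.N₀)) :
    Submodule.span (A' ⊗[k] B₀) {bm.b₀ a} =
      (I'.map (H491.bc B₀ φ) * H11.ptIdeal q A') • (⊤ : Submodule (A' ⊗[k] B₀) G'.N₀) := by
  have h := span_singleton_map_of_isSemilinearBaseChange bm.isBaseChange₀ _ a ha
  rw [Ideal.map_mul, ptIdeal_map] at h
  exact h

end BaseChange

section Degree

variable [IsAlgClosed k]

/-- Over a field: a gluing datum with a section of `G(n E₀)`, not vanishing on `E₀`, with divisor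
`I' * ptIdeal q K` of degree `g + m = n d` has degree zero. -/
theorem degree_eq_zero_of_section (hC : IsCurveChart k B₀ B₁ B₀₁ x y e)
    (hDEG2 : ∀ (K : Type u) [Field K] [Algebra k K] (G : CurveGD k B₀ B₁ B₀₁ K) (n : ℕ)
      (s : G.N₀ × G.N₁), s ∈ H11.sec x n G → H11.GenModY y G s.2 →
      Module.Finite K (G.N₀ ⧸ Submodule.span (K ⊗[k] B₀) {s.1}) ∧
        G.degree = (Module.finrank K (G.N₀ ⧸ Submodule.span (K ⊗[k] B₀) {s.1}) : ℤ) -
          (n * Module.finrank k (B₁ ⧸ Ideal.span {y}) : ℕ))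
    {n m g : ℕ} (q : Fin m → (B₀ →ₐ[k] k))
    (hnum : m + g = n * Module.finrank k (B₁ ⧸ Ideal.span {y}))
    {K : Type u} [Field K] [Algebra k K] (G : CurveGD k B₀ B₁ B₀₁ K) (s : G.N₀ × G.N₁)
    (hs : s ∈ H11.sec x n G) (hgen : H11.GenModY y G s.2) (I' : Ideal (K ⊗[k] B₀))
    (hI' : H491.IsHilb g I')
    (hspan : Submodule.span (K ⊗[k] B₀) {s.1} =
      (I' * H11.ptIdeal q K) • (⊤ : Submodule (K ⊗[k] B₀) G.N₀)) :
    G.degree = 0 := by
  obtain ⟨-, hdeg⟩ := hDEG2 K G n s hs hgen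
  obtain ⟨hfin, hrank⟩ := finrank_quotient_mul_ptIdeal (K := K) hC q I' hI'
  haveI := G.invertible₀
  obtain ⟨-, hrank'⟩ := finrank_quotient_smul_top_invertible (K := K) (N := G.N₀)
    (I' * H11.ptIdeal q K)
  rw [hdeg, hspan, hrank', hrank, ← hnum]
  push_cast
  ring

/-- **COV3, degree**: a gluing datum over `A` with a section of `G(n E₀)`, not vanishing on
`E₀`, with divisor `I' * ptIdeal q A` (`I'` a Hilbert point of degree `g`, `m + g = n d`) has
degree zero on every fibre. -/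
theorem deg0_of_section (hC : IsCurveChart k B₀ B₁ B₀₁ x y e)
    (hDEG2 : ∀ (K : Type u) [Field K] [Algebra k K] (G : CurveGD k B₀ B₁ B₀₁ K) (n : ℕ)
      (s : G.N₀ × G.N₁), s ∈ H11.sec x n G → H11.GenModY y G s.2 →
      Module.Finite K (G.N₀ ⧸ Submodule.span (K ⊗[k] B₀) {s.1}) ∧
        G.degree = (Module.finrank K (G.N₀ ⧸ Submodule.span (K ⊗[k] B₀) {s.1}) : ℤ) -
          (n * Module.finrank k (B₁ ⧸ Ideal.span {y}) : ℕ))
    {n m g : ℕ} (q : Fin m → (B₀ →ₐ[k] k))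
    (hnum : m + g = n * Module.finrank k (B₁ ⧸ Ideal.span {y}))
    {A : Type u} [CommRing A] [Algebra k A] (G : CurveGD k B₀ B₁ B₀₁ A) (s : G.N₀ × G.N₁)
    (hs : s ∈ H11.sec x n G) (hgen : H11.GenModY y G s.2) (I' : Ideal (A ⊗[k] B₀))
    (hI' : H491.IsHilb g I')
    (hspan : Submodule.span (A ⊗[k] B₀) {s.1} =
      (I' * H11.ptIdeal q A) • (⊤ : Submodule (A ⊗[k] B₀) G.N₀)) :
    G.Deg0 := by
  intro K _ _ φ G' hbc
  obtain ⟨bm⟩ := hbc
  exact degree_eq_zero_of_section hC hDEG2 q hnum G' (bm.b₀ s.1, bm.b₁ s.2) (sec_map bm hs)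
    (genModY_map bm hgen) (I'.map (H491.bc B₀ φ)) (hI'.map φ) (span_map bm q I' hspan)

/-- **COV3, rigidification and degree** together. -/
theorem rigidifiable_and_deg0_of_section (hC : IsCurveChart k B₀ B₁ B₀₁ x y e)
    (hDEG2 : ∀ (K : Type u) [Field K] [Algebra k K] (G : CurveGD k B₀ B₁ B₀₁ K) (n : ℕ)
      (s : G.N₀ × G.N₁), s ∈ H11.sec x n G → H11.GenModY y G s.2 →
      Module.Finite K (G.N₀ ⧸ Submodule.span (K ⊗[k] B₀) {s.1}) ∧
        G.degree = (Module.finrank K (G.N₀ ⧸ Submodule.span (K ⊗[k] B₀) {s.1}) : ℤ) -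
          (n * Module.finrank k (B₁ ⧸ Ideal.span {y}) : ℕ))
    {n m g : ℕ} (q : Fin m → (B₀ →ₐ[k] k))
    (hnum : m + g = n * Module.finrank k (B₁ ⧸ Ideal.span {y}))
    {A : Type u} [CommRing A] [Algebra k A] (G : CurveGD k B₀ B₁ B₀₁ A) (s : G.N₀ × G.N₁)
    (hs : s ∈ H11.sec x n G) (hgen : H11.GenModY y G s.2) (I' : Ideal (A ⊗[k] B₀))
    (hI' : H491.IsHilb g I')
    (hspan : Submodule.span (A ⊗[k] B₀) {s.1} =
      (I' * H11.ptIdeal q A) • (⊤ : Submodule (A ⊗[k] B₀) G.N₀)) :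
    G.Rigidifiable e ∧ G.Deg0 :=
  ⟨rigidifiable_of_genModY hC.e_y G s.2 hgen,
    deg0_of_section hC hDEG2 q hnum G s hs hgen I' hI' hspan⟩

end Degree

end Fermat.Agent.S25.H911
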