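import Mathlib

/-!
# S25 / ALGCHARTS, COV3 (helper911): dimension counts for invertible modules and ideals

Mathlib-only.  `K` a field, `R` a commutative `K`-algebra.

* `finrank_tensor_quotient_invertible` : `dim_K (R/I ⊗ N) = dim_K R/I` for `N` invertible.
* `finrank_quotient_smul_top_invertible` : `dim_K N / I N = dim_K R/I` for `N` invertible.
* `finrank_quotient_mul_invertible` : `dim_K R/(I J) = dim_K R/I + dim_K R/J` for `J` an
  invertible ideal.
-/

set_option autoImplicit false

universe u

open scoped TensorProduct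

namespace Fermat.Agent.S25.H911

section Dim

variable {K R : Type u} [Field K] [CommRing R] [Algebra K R]

/-- `dim_K (R/I ⊗ N) = dim_K R/I` for an invertible `R`-module `N`. -/
theorem finrank_tensor_quotient_invertible {N : Type u} [AddCommGroup N] [Module R N]
    [Module.Invertible R N] (I : Ideal R) [Module.Finite K (R ⧸ I)] :
    Module.Finite K ((R ⧸ I) ⊗[R] N) ∧
      Module.finrank K ((R ⧸ I) ⊗[R] N) = Module.finrank K (R ⧸ I) := by
  have hfin : Module.Finite K ((R ⧸ I) ⊗[R] N) := Module.Finite.trans (R ⧸ I) _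
  refine ⟨hfin, ?_⟩
  rcases subsingleton_or_nontrivial (R ⧸ I) with h | h
  · have : Subsingleton ((R ⧸ I) ⊗[R] N) := Module.subsingleton (R ⧸ I) _
    rw [Module.finrank_zero_of_subsingleton, Module.finrank_zero_of_subsingleton]
  · have : IsArtinianRing (R ⧸ I) := IsArtinianRing.of_finite K _
    have h1 : Module.finrank (R ⧸ I) ((R ⧸ I) ⊗[R] N) = 1 :=
      Module.Invertible.finrank_eq_one _ _
    have h2 := Module.finrank_mul_finrank K (R ⧸ I) ((R ⧸ I) ⊗[R] N)
    rw [h1, mul_one] at h2
    exact h2.symm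

/-- `dim_K N / I N = dim_K R/I` for an invertible `R`-module `N`. -/
theorem finrank_quotient_smul_top_invertible {N : Type u} [AddCommGroup N] [Module R N]
    [Module K N] [IsScalarTower K R N] [Module.Invertible R N] (I : Ideal R)
    [Module.Finite K (R ⧸ I)] :
    Module.Finite K (N ⧸ (I • ⊤ : Submodule R N)) ∧
      Module.finrank K (N ⧸ (I • ⊤ : Submodule R N)) = Module.finrank K (R ⧸ I) := by
  obtain ⟨hfin, hrank⟩ := finrank_tensor_quotient_invertible (K := K) (N := N) I
  have e1 : ((R ⧸ I) ⊗[R] N) ≃ₗ[K] N ⧸ (I • (⊤ : Submodule R N)) :=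
    (TensorProduct.quotTensorEquivQuotSMul N I).restrictScalars K
  exact ⟨Module.Finite.equiv e1, by rw [← hrank]; exact e1.symm.finrank_eq⟩

/-- `dim_K R/(I J) = dim_K R/I + dim_K R/J` when `J` is invertible as a module. -/
theorem finrank_quotient_mul_invertible (I J : Ideal R) [Module.Invertible R J]
    [Module.Finite K (R ⧸ I)] [Module.Finite K (R ⧸ J)] :
    Module.Finite K (R ⧸ (I * J)) ∧
      Module.finrank K (R ⧸ (I * J)) = Module.finrank K (R ⧸ I) + Module.finrank K (R ⧸ J) := by
  -- the projection `R/(IJ) → R/J`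
  have hle : I * J ≤ J := Ideal.mul_le_right
  let π : (R ⧸ (I * J)) →ₗ[R] (R ⧸ J) := Submodule.mapQ (I * J) J LinearMap.id hle
  have hπ : Function.Surjective π := by
    intro z
    obtain ⟨r, rfl⟩ := Submodule.Quotient.mk_surjective _ z
    exact ⟨Submodule.Quotient.mk r, rfl⟩
  -- the map `J → R/(IJ)`
  let f : J →ₗ[R] (R ⧸ (I * J)) := (Submodule.mkQ (I * J)).comp J.subtype
  have hfker : LinearMap.ker f = (I • ⊤ : Submodule R J) := by
    ext j
    rw [LinearMap.mem_ker]
    change Submodule.Quotient.mk (j : R) = 0 ↔ _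
    rw [Submodule.Quotient.mk_eq_zero]
    have h1 : (I • (⊤ : Submodule R J)).map J.subtype = I * J := by
      rw [Submodule.map_smul'', Submodule.map_top, Submodule.range_subtype]
      rfl
    constructor
    · intro hj
      rw [← h1] at hj
      obtain ⟨j', hj', hjj'⟩ := hj
      have : j' = j := Subtype.ext hjj'
      rwa [this] at hj'
    · intro hj
      rw [← h1]
      exact ⟨j, hj, rfl⟩
  have hfrange : LinearMap.range f = LinearMap.ker π := by
    ext z
    constructor
    · rintro ⟨j, rfl⟩
      rw [LinearMap.mem_ker]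
      change Submodule.Quotient.mk (j : R) = 0
      rw [Submodule.Quotient.mk_eq_zero]
      exact j.2
    · intro hz
      obtain ⟨r, rfl⟩ := Submodule.Quotient.mk_surjective _ z
      rw [LinearMap.mem_ker] at hz
      change Submodule.Quotient.mk r = 0 at hz
      rw [Submodule.Quotient.mk_eq_zero] at hz
      exact ⟨⟨r, hz⟩, rfl⟩
  obtain ⟨hfin1, hrank1⟩ := finrank_quotient_smul_top_invertible (K := K) (N := J) I
  -- `ker π ≃ J / I J`
  let e : (J ⧸ (I • ⊤ : Submodule R J)) ≃ₗ[R] LinearMap.ker π :=
    (Submodule.quotEquivOfEq _ _ hfker.symm).trans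
      ((LinearMap.quotKerEquivRange f).trans (LinearEquiv.ofEq _ _ hfrange))
  let eK : (J ⧸ (I • ⊤ : Submodule R J)) ≃ₗ[K] LinearMap.ker π := e.restrictScalars K
  have hkerfin : Module.Finite K (LinearMap.ker π) := Module.Finite.equiv eK
  have hkerrank : Module.finrank K (LinearMap.ker π) = Module.finrank K (R ⧸ I) := by
    rw [← hrank1]; exact eK.symm.finrank_eq
  let πK : (R ⧸ (I * J)) →ₗ[K] (R ⧸ J) := π.restrictScalars K
  have hkerK : Module.Finite K (LinearMap.ker πK) := hkerfin
  have hquotfin : Module.Finite K ((R ⧸ (I * J)) ⧸ LinearMap.ker πK) :=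
    Module.Finite.equiv (πK.quotKerEquivOfSurjective hπ).symm
  have hfin : Module.Finite K (R ⧸ (I * J)) := Module.Finite.of_submodule_quotient
    (LinearMap.ker πK)
  refine ⟨hfin, ?_⟩
  have h := LinearMap.finrank_range_add_finrank_ker πK
  have hr : Module.finrank K (LinearMap.range πK) = Module.finrank K (R ⧸ J) := by
    have hπK : Function.Surjective πK := hπ
    rw [LinearMap.range_eq_top.mpr hπK, finrank_top]
  rw [hr] at h
  have hk : Module.finrank K (LinearMap.ker πK) = Module.finrank K (R ⧸ I) := hkerrank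
  rw [hk] at h
  rw [← h, add_comm]

end Dim

end Fermat.Agent.S25.H911
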