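import Fermat.Agent.S25.H11.ACDefs
import Fermat.Agent.S25.H851.HilbGD
import Fermat.Agent.S25.H911.ACDim
import Fermat.Agent.S25.H911.GDCBase

/-!
# S25 / ALGCHARTS, SH2 (helper911): the ideal `ptIdeal q A` of the divisor `Σ q i`

* `ptHom_comp_tensorMapLeft`, `ker_ptHom_map`, `ptIdeal_map` : compatibility with base change,
  `(ptIdeal q A).map (tensorMapLeft k φ B₀) = ptIdeal q A'`;
* `quotKerPtHomEquiv` : `(A ⊗ B₀) ⧸ ker (ptHom p A) ≃ₐ[A] A`;
* `ker_ptHom_invertible` : `ker (ptHom p A)` is an invertible module (curve chart, H3);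
* `finrank_quotient_ptIdeal` : over a field `K`, `dim_K (K ⊗ B₀) ⧸ ptIdeal q K = m`;
* `finrank_quotient_mul_ptIdeal` : `dim_K (K ⊗ B₀) ⧸ (I * ptIdeal q K) = g + m` for a Hilbert
  point `I` of degree `g`.
-/

set_option autoImplicit false
set_option linter.style.haveILetI false

universe u

open scoped TensorProduct

namespace Fermat.Agent.S25.H911

open Fermat.Agent.S25

variable {k : Type u} [Field k] {B₀ B₁ B₀₁ : Type u} [CommRing B₀] [CommRing B₁] [CommRing B₀₁]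
  [Algebra k B₀] [Algebra k B₁] [Algebra k B₀₁] [Algebra B₀ B₀₁] [Algebra B₁ B₀₁]
  [IsScalarTower k B₀ B₀₁] [IsScalarTower k B₁ B₀₁]

section General

variable {A A' : Type u} [CommRing A] [Algebra k A] [CommRing A'] [Algebra k A']

theorem ptHom_surjective (p : B₀ →ₐ[k] k) (A : Type u) [CommRing A] [Algebra k A] :
    Function.Surjective (H11.ptHom p A) := fun a =>
  ⟨a ⊗ₜ[k] 1, by rw [H11.ptHom_tmul, map_one, map_one, mul_one]⟩

/-- `(A ⊗ B₀) ⧸ ker (ptHom p A) ≃ A`. -/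
noncomputable def quotKerPtHomEquiv (p : B₀ →ₐ[k] k) (A : Type u) [CommRing A] [Algebra k A] :
    ((A ⊗[k] B₀) ⧸ RingHom.ker (H11.ptHom p A)) ≃ₐ[A] A :=
  Ideal.quotientKerAlgEquivOfSurjective (ptHom_surjective p A)

/-- The `A`-points `ptHom p` are compatible with base change. -/
theorem ptHom_comp_tensorMapLeft (p : B₀ →ₐ[k] k) (φ : A →ₐ[k] A') (z : A ⊗[k] B₀) :
    H11.ptHom p A' (tensorMapLeft k φ B₀ z) = φ (H11.ptHom p A z) := by
  induction z using TensorProduct.induction_on with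
  | zero => simp
  | tmul a b =>
    rw [tensorMapLeft_tmul, H11.ptHom_tmul, H11.ptHom_tmul, map_mul, AlgHom.commutes]
  | add x y hx hy => rw [map_add, map_add, hx, hy, map_add, map_add]

/-- Every element is congruent to a constant modulo the generators `1 ⊗ b - p b` of
`ker (ptHom p A)`. -/
theorem sub_ptHom_mem_span (p : B₀ →ₐ[k] k) (z : A ⊗[k] B₀) :
    z - H11.ptHom p A z ⊗ₜ[k] (1 : B₀) ∈
      Ideal.span (Set.range fun b : B₀ =>
        ((1 : A) ⊗ₜ[k] b - (1 : A) ⊗ₜ[k] (algebraMap k B₀ (p b)) : A ⊗[k] B₀)) := by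
  induction z using TensorProduct.induction_on with
  | zero => simp
  | tmul a b =>
    have h : a ⊗ₜ[k] b - H11.ptHom p A (a ⊗ₜ[k] b) ⊗ₜ[k] (1 : B₀) =
        (a ⊗ₜ[k] (1 : B₀)) * ((1 : A) ⊗ₜ[k] b - (1 : A) ⊗ₜ[k] (algebraMap k B₀ (p b))) := by
      rw [H11.ptHom_tmul, mul_sub, Algebra.TensorProduct.tmul_mul_tmul,
        Algebra.TensorProduct.tmul_mul_tmul, mul_one, one_mul, one_mul]
      congr 1
      rw [Algebra.algebraMap_eq_smul_one, Algebra.algebraMap_eq_smul_one,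
        TensorProduct.tmul_smul, mul_smul_comm, mul_one, TensorProduct.smul_tmul']
    rw [h]
    exact Ideal.mul_mem_left _ _ (Ideal.subset_span ⟨b, rfl⟩)
  | add x y hx hy =>
    have h : x + y - H11.ptHom p A (x + y) ⊗ₜ[k] (1 : B₀) =
        (x - H11.ptHom p A x ⊗ₜ[k] (1 : B₀)) + (y - H11.ptHom p A y ⊗ₜ[k] (1 : B₀)) := by
      rw [map_add, TensorProduct.add_tmul]; abel
    rw [h]
    exact Ideal.add_mem _ hx hy

theorem gen_mem_ker_ptHom (p : B₀ →ₐ[k] k) (A : Type u) [CommRing A] [Algebra k A] (b : B₀) :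
    ((1 : A) ⊗ₜ[k] b - (1 : A) ⊗ₜ[k] (algebraMap k B₀ (p b)) : A ⊗[k] B₀) ∈
      RingHom.ker (H11.ptHom p A) := by
  rw [RingHom.mem_ker, map_sub, H11.ptHom_tmul, H11.ptHom_tmul, AlgHom.commutes, sub_eq_zero]
  rfl

/-- `ker (ptHom p A)` is generated by the elements `1 ⊗ b - p b`. -/
theorem ker_ptHom_eq_span (p : B₀ →ₐ[k] k) (A : Type u) [CommRing A] [Algebra k A] :
    RingHom.ker (H11.ptHom p A) =
      Ideal.span (Set.range fun b : B₀ =>
        ((1 : A) ⊗ₜ[k] b - (1 : A) ⊗ₜ[k] (algebraMap k B₀ (p b)) : A ⊗[k] B₀)) := by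
  apply le_antisymm
  · intro z hz
    have h := sub_ptHom_mem_span p z
    rw [RingHom.mem_ker] at hz
    rwa [hz, TensorProduct.zero_tmul, sub_zero] at h
  · rw [Ideal.span_le]
    rintro _ ⟨b, rfl⟩
    exact gen_mem_ker_ptHom p A b

/-- **Base change of the ideal of a point.** -/
theorem ker_ptHom_map (p : B₀ →ₐ[k] k) (φ : A →ₐ[k] A') :
    (RingHom.ker (H11.ptHom p A)).map (tensorMapLeft k φ B₀) = RingHom.ker (H11.ptHom p A') := by
  rw [ker_ptHom_eq_span p A, ker_ptHom_eq_span p A', Ideal.map_span]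
  congr 1
  ext z
  constructor
  · rintro ⟨_, ⟨b, rfl⟩, rfl⟩
    refine ⟨b, ?_⟩
    rw [map_sub, tensorMapLeft_tmul, tensorMapLeft_tmul, map_one]
  · rintro ⟨b, rfl⟩
    refine ⟨_, ⟨b, rfl⟩, ?_⟩
    rw [map_sub, tensorMapLeft_tmul, tensorMapLeft_tmul, map_one]

/-- **Base change of the ideal of the divisor `Σ q i`.** -/
theorem ptIdeal_map {m : ℕ} (q : Fin m → (B₀ →ₐ[k] k)) (φ : A →ₐ[k] A') :
    (H11.ptIdeal q A).map (tensorMapLeft k φ B₀) = H11.ptIdeal q A' := by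
  unfold H11.ptIdeal
  have h := map_prod (Ideal.mapHom (tensorMapLeft k φ B₀))
    (fun i => RingHom.ker (H11.ptHom (q i) A)) Finset.univ
  simp only [Ideal.mapHom_apply] at h
  rw [h]
  exact Finset.prod_congr rfl (fun i _ => ker_ptHom_map (q i) φ)

end General

section Chart

variable {x : B₀} {y : B₁} {e : B₁ →ₐ[k] k} [IsAlgClosed k]

/-- The ideal of an `A`-point of `Spec B₀` is an invertible module. -/
theorem ker_ptHom_invertible (hC : IsCurveChart k B₀ B₁ B₀₁ x y e) (p : B₀ →ₐ[k] k)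
    (A : Type u) [CommRing A] [Algebra k A] :
    Module.Invertible (A ⊗[k] B₀) (RingHom.ker (H11.ptHom p A)) := by
  have e' := (quotKerPtHomEquiv p A).toLinearEquiv
  haveI : Module.Finite A ((A ⊗[k] B₀) ⧸ RingHom.ker (H11.ptHom p A)) :=
    Module.Finite.equiv e'.symm
  haveI : Module.Projective A ((A ⊗[k] B₀) ⧸ RingHom.ker (H11.ptHom p A)) :=
    Module.Projective.of_equiv e'.symm
  exact H851.hilb_invertible A hC _

variable {K : Type u} [Field K] [Algebra k K]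

omit [IsAlgClosed k] in
theorem finrank_quotient_ker_ptHom (p : B₀ →ₐ[k] k) :
    Module.Finite K ((K ⊗[k] B₀) ⧸ RingHom.ker (H11.ptHom p K)) ∧
      Module.finrank K ((K ⊗[k] B₀) ⧸ RingHom.ker (H11.ptHom p K)) = 1 := by
  have e' := (quotKerPtHomEquiv p K).toLinearEquiv
  exact ⟨Module.Finite.equiv e'.symm, by rw [e'.finrank_eq, Module.finrank_self]⟩

/-- Over a field, `dim_K (K ⊗ B₀) ⧸ ptIdeal q K = m`. -/
theorem finrank_quotient_ptIdeal (hC : IsCurveChart k B₀ B₁ B₀₁ x y e) :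
    ∀ {m : ℕ} (q : Fin m → (B₀ →ₐ[k] k)),
      Module.Finite K ((K ⊗[k] B₀) ⧸ H11.ptIdeal q K) ∧
        Module.finrank K ((K ⊗[k] B₀) ⧸ H11.ptIdeal q K) = m := by
  intro m
  induction m with
  | zero =>
    intro q
    have h : H11.ptIdeal q K = ⊤ := by
      unfold H11.ptIdeal
      rw [Finset.univ_eq_empty, Finset.prod_empty, Ideal.one_eq_top]
    rw [h]
    haveI : Subsingleton ((K ⊗[k] B₀) ⧸ (⊤ : Ideal (K ⊗[k] B₀))) :=
      Ideal.Quotient.subsingleton_iff.mpr rfl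
    exact ⟨inferInstance, Module.finrank_zero_of_subsingleton⟩
  | succ m ih =>
    intro q
    have h : H11.ptIdeal q K =
        H11.ptIdeal (fun i : Fin m => q i.succ) K * RingHom.ker (H11.ptHom (q 0) K) := by
      unfold H11.ptIdeal
      rw [Fin.prod_univ_succ, mul_comm]
    rw [h]
    obtain ⟨hf1, hr1⟩ := ih (fun i : Fin m => q i.succ)
    obtain ⟨hf2, hr2⟩ := finrank_quotient_ker_ptHom (K := K) (q 0)
    haveI := ker_ptHom_invertible hC (q 0) K
    obtain ⟨hf, hr⟩ := finrank_quotient_mul_invertible (K := K)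
      (H11.ptIdeal (fun i : Fin m => q i.succ) K) (RingHom.ker (H11.ptHom (q 0) K))
    exact ⟨hf, by rw [hr, hr1, hr2]⟩

/-- Over a field: `dim_K (K ⊗ B₀) ⧸ (I * ptIdeal q K) = g + m` for a Hilbert point `I` of
degree `g`. -/
theorem finrank_quotient_mul_ptIdeal (hC : IsCurveChart k B₀ B₁ B₀₁ x y e) {m g : ℕ}
    (q : Fin m → (B₀ →ₐ[k] k)) (I : Ideal (K ⊗[k] B₀)) (hI : H491.IsHilb g I) :
    Module.Finite K ((K ⊗[k] B₀) ⧸ (I * H11.ptIdeal q K)) ∧
      Module.finrank K ((K ⊗[k] B₀) ⧸ (I * H11.ptIdeal q K)) = g + m := by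
  haveI := hI.finite
  haveI := hI.projective
  haveI : Module.Invertible (K ⊗[k] B₀) I := H851.hilb_invertible K hC I
  obtain ⟨hf1, hr1⟩ := finrank_quotient_ptIdeal (K := K) hC q
  have hg : Module.finrank K ((K ⊗[k] B₀) ⧸ I) = g := by
    have h := hI.rank ⟨⊥, Ideal.isPrime_bot⟩
    rw [Module.rankAtStalk_eq_finrank_of_free] at h
    exact_mod_cast h
  obtain ⟨hf, hr⟩ := finrank_quotient_mul_invertible (K := K) (H11.ptIdeal q K) I
  rw [mul_comm]
  exact ⟨hf, by rw [hr, hr1, hg, add_comm]⟩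

end Chart

end Fermat.Agent.S25.H911
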