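import Fermat.Agent.S25.DefsAlg
import Fermat.Agent.S25.H971.Lift

/-!
# S25 / block ALGDEF (helper911): gluing data lift along nil surjections — core

Pure algebra on the frozen `GlueDatum` of `DefsAlg.lean`.

* `exists_semilinear_lift` : an invertible module lifts along a surjection with nil kernel,
  in the semilinear form `IsSemilinearBaseChange`.
* `exists_linearEquiv_of_semilinearBaseChange` : two finite projective lifts of the same module
  along a surjection with nil kernel are isomorphic, compatibly with the maps to the module.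
* `exists_semilinear_extend` : transitivity of semilinear base change in a commutative square.
* `GlueDatum.exists_isBC_of_nil` : every gluing datum over the target cospan is a base change
  of a gluing datum over the source cospan, for a morphism of cospans consisting of
  surjections with nil kernels.
-/

set_option autoImplicit false
set_option linter.style.haveILetI false

universe u

open scoped TensorProduct

namespace Fermat.Agent.S25.H911

open Fermat.Agent.S25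

section Semilinear

variable {R S : Type u} [CommRing R] [CommRing S] (ρ : R →+* S)

/-- Unfolding of `IsSemilinearBaseChange` for a map which is already linear for the algebra
structure `ρ.toAlgebra` and the module structure `Module.compHom _ ρ`. -/
theorem isSemilinearBaseChange_iff {N N' : Type u} [AddCommGroup N] [Module R N]
    [AddCommGroup N'] [Module S N'] (b : N →ₛₗ[ρ] N') :
    IsSemilinearBaseChange ρ b ↔
      (letI : Algebra R S := ρ.toAlgebra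
       letI : Module R N' := Module.compHom N' ρ
       haveI : IsScalarTower R S N' := ⟨fun r r' n => by
         change (ρ r * r') • n = ρ r • (r' • n); rw [mul_smul]⟩
       IsBaseChange S (show N →ₗ[R] N' from
         { toFun := fun n => b n
           map_add' := fun m n => b.map_add m n
           map_smul' := fun r n => LinearMap.map_smulₛₗ b r n })) :=
  Iff.rfl

/-- **Invertible modules lift** along a surjection with nil kernel (semilinear form). -/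
theorem exists_semilinear_lift (hs : Function.Surjective ρ)
    (hn : ∀ x ∈ RingHom.ker ρ, IsNilpotent x)
    (Q : Type u) [AddCommGroup Q] [Module S Q] [Module.Invertible S Q] :
    ∃ (P : Type u) (_ : AddCommGroup P) (_ : Module R P) (_ : Module.Invertible R P)
      (b : P →ₛₗ[ρ] Q), IsSemilinearBaseChange ρ b := by
  letI : Algebra R S := ρ.toAlgebra
  obtain ⟨P, iP, mP, hP, ⟨e⟩⟩ := H971.exists_invertible_lift (R := R) (S := S) hs hn Q
  refine ⟨P, iP, mP, hP,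
    { toFun := fun p => e ((1 : S) ⊗ₜ[R] p)
      map_add' := fun p q => by rw [TensorProduct.tmul_add, map_add]
      map_smul' := fun r p => by
        have h1 : (1 : S) ⊗ₜ[R] (r • p) = ρ r • ((1 : S) ⊗ₜ[R] p) := by
          rw [TensorProduct.tmul_smul, TensorProduct.smul_tmul', TensorProduct.smul_tmul',
            Algebra.smul_def, smul_eq_mul]
          rfl
        rw [h1, map_smul] }, ?_⟩
  rw [isSemilinearBaseChange_iff]
  letI : Module R Q := Module.compHom Q ρ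
  haveI : IsScalarTower R S Q := ⟨fun r r' n => by
    change (ρ r * r') • n = ρ r • (r' • n); rw [mul_smul]⟩
  exact IsBaseChange.of_equiv e (fun x => rfl)

/-- **Uniqueness of lifts.** Two finite projective lifts of the same module along a surjection
with nil kernel are isomorphic, compatibly with the maps to the module. -/
theorem exists_linearEquiv_of_semilinearBaseChange (hs : Function.Surjective ρ)
    (hn : ∀ x ∈ RingHom.ker ρ, IsNilpotent x)
    {P P' Q : Type u} [AddCommGroup P] [Module R P] [Module.Finite R P] [Module.Projective R P]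
    [AddCommGroup P'] [Module R P'] [Module.Finite R P'] [Module.Projective R P']
    [AddCommGroup Q] [Module S Q]
    (d : P →ₛₗ[ρ] Q) (d' : P' →ₛₗ[ρ] Q) (hd : IsSemilinearBaseChange ρ d)
    (hd' : IsSemilinearBaseChange ρ d') :
    ∃ ψ : P ≃ₗ[R] P', ∀ p, d' (ψ p) = d p := by
  rw [isSemilinearBaseChange_iff] at hd hd'
  letI : Algebra R S := ρ.toAlgebra
  letI : Module R Q := Module.compHom Q ρ
  haveI : IsScalarTower R S Q := ⟨fun r r' n => by
    change (ρ r * r') • n = ρ r • (r' • n); rw [mul_smul]⟩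
  obtain ⟨ψ, hψ⟩ := H971.exists_linearEquiv_lift (R := R) (S := S) hs hn
    (hd.equiv ≪≫ₗ hd'.equiv.symm)
  refine ⟨ψ, fun p => ?_⟩
  have h1 := hψ p
  rw [LinearEquiv.trans_apply, LinearEquiv.symm_apply_eq, IsBaseChange.equiv_tmul,
    IsBaseChange.equiv_tmul, one_smul, one_smul] at h1
  exact h1.symm

end Semilinear

section Extend

variable {R₀ R₀₁ S₀ S₀₁ : Type u} [CommRing R₀] [CommRing R₀₁] [CommRing S₀] [CommRing S₀₁]
  [Algebra R₀ R₀₁] [Algebra S₀ S₀₁]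

/-- **Transitivity of semilinear base change** in a commutative square of rings
`R₀ → R₀₁`, `R₀ → S₀`, `R₀₁ → S₀₁`, `S₀ → S₀₁`: if `P₀ → N₀'` is a base change along `ρ₀` and
`N₀' → N₀₁'` a base change along `S₀ → S₀₁`, then `R₀₁ ⊗ P₀ → N₀₁'` is a base change along
`ρ₀₁`. -/
theorem exists_semilinear_extend (ρ₀ : R₀ →+* S₀) (ρ₀₁ : R₀₁ →+* S₀₁)
    (h : ρ₀₁.comp (algebraMap R₀ R₀₁) = (algebraMap S₀ S₀₁).comp ρ₀)
    {P₀ N₀' N₀₁' : Type u} [AddCommGroup P₀] [Module R₀ P₀] [AddCommGroup N₀'] [Module S₀ N₀']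
    [AddCommGroup N₀₁'] [Module S₀₁ N₀₁'] [Module S₀ N₀₁'] [IsScalarTower S₀ S₀₁ N₀₁']
    (b₀ : P₀ →ₛₗ[ρ₀] N₀') (hb₀ : IsSemilinearBaseChange ρ₀ b₀)
    (r₀' : N₀' →ₗ[S₀] N₀₁') (hr₀' : IsBaseChange S₀₁ r₀') :
    ∃ d : (R₀₁ ⊗[R₀] P₀) →ₛₗ[ρ₀₁] N₀₁', IsSemilinearBaseChange ρ₀₁ d ∧
      ∀ p : P₀, d ((1 : R₀₁) ⊗ₜ[R₀] p) = r₀' (b₀ p) := by
  rw [isSemilinearBaseChange_iff] at hb₀
  letI : Algebra R₀ S₀ := ρ₀.toAlgebra
  letI : Algebra R₀₁ S₀₁ := ρ₀₁.toAlgebra
  letI : Algebra R₀ S₀₁ := ((algebraMap S₀ S₀₁).comp ρ₀).toAlgebra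
  haveI : IsScalarTower R₀ S₀ S₀₁ := IsScalarTower.of_algebraMap_eq (fun x => rfl)
  haveI : IsScalarTower R₀ R₀₁ S₀₁ :=
    IsScalarTower.of_algebraMap_eq (fun x => (RingHom.congr_fun h x).symm)
  letI : Module R₀ N₀' := Module.compHom N₀' ρ₀
  haveI : IsScalarTower R₀ S₀ N₀' := ⟨fun r r' n => by
    change (ρ₀ r * r') • n = ρ₀ r • (r' • n); rw [mul_smul]⟩
  letI : Module R₀₁ N₀₁' := Module.compHom N₀₁' ρ₀₁
  haveI : IsScalarTower R₀₁ S₀₁ N₀₁' := ⟨fun r r' n => by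
    change (ρ₀₁ r * r') • n = ρ₀₁ r • (r' • n); rw [mul_smul]⟩
  letI : Module R₀ N₀₁' := Module.compHom N₀₁' ((algebraMap S₀ S₀₁).comp ρ₀)
  haveI : IsScalarTower R₀ S₀₁ N₀₁' := ⟨fun r r' n => by
    change (algebraMap S₀ S₀₁ (ρ₀ r) * r') • n = algebraMap S₀ S₀₁ (ρ₀ r) • (r' • n)
    rw [mul_smul]⟩
  haveI : IsScalarTower R₀ S₀ N₀₁' := ⟨fun r r' n => by
    change (ρ₀ r * r') • n = algebraMap S₀ S₀₁ (ρ₀ r) • (r' • n)
    rw [mul_smul, algebraMap_smul]⟩
  haveI : IsScalarTower R₀ R₀₁ N₀₁' := ⟨fun r r' n => by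
    change ρ₀₁ (r • r') • n = algebraMap S₀ S₀₁ (ρ₀ r) • (ρ₀₁ r' • n)
    rw [Algebra.smul_def, map_mul, mul_smul,
      show ρ₀₁ (algebraMap R₀ R₀₁ r) = algebraMap S₀ S₀₁ (ρ₀ r) from RingHom.congr_fun h r]⟩
  let b₀L : P₀ →ₗ[R₀] N₀' :=
    { toFun := fun n => b₀ n
      map_add' := fun m n => b₀.map_add m n
      map_smul' := fun r n => LinearMap.map_smulₛₗ b₀ r n }
  have hb₀' : IsBaseChange S₀ b₀L := hb₀
  let c₀ : P₀ →ₗ[R₀] N₀₁' := (r₀'.restrictScalars R₀).comp b₀L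
  have hc₀ : IsBaseChange S₀₁ c₀ := IsBaseChange.comp hb₀' hr₀'
  have hmk : IsBaseChange R₀₁ (TensorProduct.mk R₀ R₀₁ P₀ 1) :=
    TensorProduct.isBaseChange R₀ P₀ R₀₁
  have hdL : IsBaseChange S₀₁ (hmk.lift c₀) :=
    IsBaseChange.of_comp hmk (by rw [hmk.lift_comp]; exact hc₀)
  refine ⟨{ toFun := fun z => hmk.lift c₀ z
            map_add' := fun a b => map_add _ a b
            map_smul' := fun r z => map_smul (hmk.lift c₀) r z }, ?_, fun p => ?_⟩
  · rw [isSemilinearBaseChange_iff]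
    exact hdL
  · exact hmk.lift_eq c₀ p

end Extend

section Main

variable {A R₀ R₁ R₀₁ : Type u} [CommRing A] [CommRing R₀] [CommRing R₁]
    [CommRing R₀₁] [Algebra A R₀] [Algebra A R₁] [Algebra A R₀₁] [Algebra R₀ R₀₁]
    [Algebra R₁ R₀₁] [IsScalarTower A R₀ R₀₁] [IsScalarTower A R₁ R₀₁]
    {A' R₀' R₁' R₀₁' : Type u} [CommRing A'] [CommRing R₀'] [CommRing R₁']
    [CommRing R₀₁'] [Algebra A' R₀'] [Algebra A' R₁'] [Algebra A' R₀₁'] [Algebra R₀' R₀₁']
    [Algebra R₁' R₀₁'] [IsScalarTower A' R₀' R₀₁'] [IsScalarTower A' R₁' R₀₁']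

/-- **Gluing data lift along nil surjections.** For a morphism of cospans
`(ρ₀, ρ₁, ρ₀₁) : (R₀ → R₀₁ ← R₁) → (R₀' → R₀₁' ← R₁')` consisting of surjections with nil
kernels, every gluing datum over the target is a base change of a gluing datum over the
source. -/
theorem exists_isBC_of_nil (ρ₀ : R₀ →+* R₀') (ρ₁ : R₁ →+* R₁') (ρ₀₁ : R₀₁ →+* R₀₁')
    (h₀ : ρ₀₁.comp (algebraMap R₀ R₀₁) = (algebraMap R₀' R₀₁').comp ρ₀)
    (h₁ : ρ₀₁.comp (algebraMap R₁ R₀₁) = (algebraMap R₁' R₀₁').comp ρ₁)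
    (hs₀ : Function.Surjective ρ₀) (hn₀ : ∀ x ∈ RingHom.ker ρ₀, IsNilpotent x)
    (hs₁ : Function.Surjective ρ₁) (hn₁ : ∀ x ∈ RingHom.ker ρ₁, IsNilpotent x)
    (hs₀₁ : Function.Surjective ρ₀₁) (hn₀₁ : ∀ x ∈ RingHom.ker ρ₀₁, IsNilpotent x)
    (G' : GlueDatum A' R₀' R₁' R₀₁') :
    ∃ G : GlueDatum A R₀ R₁ R₀₁, GlueDatum.IsBC ρ₀ ρ₁ ρ₀₁ G G' := by
  haveI := G'.invertible₀
  haveI := G'.invertible₁
  obtain ⟨P₀, _, _, hP₀, b₀, hb₀⟩ := exists_semilinear_lift ρ₀ hs₀ hn₀ G'.N₀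
  obtain ⟨P₁, _, _, hP₁, b₁, hb₁⟩ := exists_semilinear_lift ρ₁ hs₁ hn₁ G'.N₁
  obtain ⟨d₀, hd₀, hd₀e⟩ :=
    exists_semilinear_extend ρ₀ ρ₀₁ h₀ b₀ hb₀ G'.r₀ G'.isBaseChange₀
  obtain ⟨d₁, hd₁, hd₁e⟩ :=
    exists_semilinear_extend ρ₁ ρ₀₁ h₁ b₁ hb₁ G'.r₁ G'.isBaseChange₁
  obtain ⟨ψ, hψ⟩ := exists_linearEquiv_of_semilinearBaseChange ρ₀₁ hs₀₁ hn₀₁ d₁ d₀ hd₁ hd₀
  let r₁ : P₁ →ₗ[R₁] (R₀₁ ⊗[R₀] P₀) :=
    { toFun := fun n => ψ ((1 : R₀₁) ⊗ₜ[R₁] n)
      map_add' := fun m n => by rw [TensorProduct.tmul_add, map_add]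
      map_smul' := fun r n => by
        have h1 : (1 : R₀₁) ⊗ₜ[R₁] (r • n) = algebraMap R₁ R₀₁ r • ((1 : R₀₁) ⊗ₜ[R₁] n) := by
          rw [TensorProduct.tmul_smul, algebraMap_smul]
        rw [h1, map_smul, algebraMap_smul]
        rfl }
  have hr₁ : IsBaseChange R₀₁ r₁ := IsBaseChange.of_equiv ψ (fun x => rfl)
  letI bm₀ : Module A P₀ := Module.compHom P₀ (algebraMap A R₀)
  haveI bt₀ : IsScalarTower A R₀ P₀ := ⟨fun a r z => by
    change (a • r) • z = algebraMap A R₀ a • (r • z)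
    rw [Algebra.smul_def, mul_smul]⟩
  letI bm₁ : Module A P₁ := Module.compHom P₁ (algebraMap A R₁)
  haveI bt₁ : IsScalarTower A R₁ P₁ := ⟨fun a r z => by
    change (a • r) • z = algebraMap A R₁ a • (r • z)
    rw [Algebra.smul_def, mul_smul]⟩
  let G : GlueDatum A R₀ R₁ R₀₁ :=
    { N₀ := P₀
      N₁ := P₁
      N₀₁ := R₀₁ ⊗[R₀] P₀
      baseModule₀ := bm₀
      baseModule₁ := bm₁
      baseTower₀ := bt₀
      baseTower₁ := bt₁
      r₀ := TensorProduct.mk R₀ R₀₁ P₀ 1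
      r₁ := r₁
      isBaseChange₀ := TensorProduct.isBaseChange R₀ P₀ R₀₁
      isBaseChange₁ := hr₁
      invertible₀ := hP₀
      invertible₁ := hP₁ }
  have hcomm₁ : ∀ s : P₁, d₀ (r₁ s) = G'.r₁ (b₁ s) := fun s => by
    change d₀ (ψ ((1 : R₀₁) ⊗ₜ[R₁] s)) = G'.r₁ (b₁ s)
    rw [hψ, hd₁e]
  exact ⟨G, ⟨⟨b₀, b₁, d₀, hd₀e, hcomm₁, hb₀, hb₁, hd₀⟩⟩⟩

end Main

end Fermat.Agent.S25.H911
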