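import Fermat.Agent.S25.H911.InvLocal

/-!
# S25 / HILB leaf H6 (helper911): contraction of a relative divisor to the second chart

Setting (two-chart curve, route A5/A6): `R0`, `R1` are the coordinate rings of the two charts of
`C × Spec A`, `R01` is the coordinate ring of the overlap, `R01 = R0[1/x] = R1[1/y]`, `x * y = 1`.
For an ideal `I ⊆ R0` (a relative effective divisor contained in the first chart, i.e. `R0 ⧸ I`
finite over `A`) its *contraction* is `I₁ := (I · R01) ∩ R1`.

Main results (all Mathlib-only, no noetherian or domain hypotheses):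

* `exists_monic_aeval_mem` : `R0 ⧸ I` finite over `A` ⇒ a monic `P ∈ A[X]` with `P(x) ∈ I`.
* `exists_one_add_mul_mem_contraction` : then `1 + y * w ∈ I₁` for some `w`.
* `contraction_sup_span` : `I₁ ⊔ (y) = ⊤`.
* `map_contraction` : `I₁ · R01 = I · R01`.
* `eq_contraction` : `I₁` is the unique ideal `J` of `R1` with `J · R01 = I · R01`, `J ⊔ (y) = ⊤`.
* `contractionMap`, `contractionMap_isLocalizedModule` : `I₁ → I · R01` is the localization of
  `I₁` at `y` (and `Algebra.idealMap R01 I : I → I · R01` the localization of `I` at `x`): the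
  triple `(I, I₁, I · R01)` is a gluing datum in the sense of block CECH.
* `invertible_map` : `I` invertible ⇒ `I · R01` invertible over `R01`.
* `contraction_invertible` : `I` invertible ⇒ `I₁` invertible over `R1`.
* `quotientMap_contraction_bijective` : `R1 ⧸ I₁ ≃ R01 ⧸ I · R01`.
-/

set_option autoImplicit false
set_option linter.style.haveILetI false

namespace Fermat.Agent.S25.H911

open Polynomial

section Integrality

variable {A R0 : Type*} [CommRing A] [CommRing R0] [Algebra A R0]

/-- If `R0 ⧸ I` is a finite `A`-module, every `x : R0` satisfies a monic equation modulo `I`. -/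
theorem exists_monic_aeval_mem (I : Ideal R0) [Module.Finite A (R0 ⧸ I)] (x : R0) :
    ∃ P : A[X], P.Monic ∧ aeval x P ∈ I := by
  have hint : Algebra.IsIntegral A (R0 ⧸ I) := Algebra.IsIntegral.of_finite A (R0 ⧸ I)
  obtain ⟨P, hP, hPx⟩ := hint.isIntegral (Ideal.Quotient.mk I x)
  refine ⟨P, hP, ?_⟩
  rw [← Ideal.Quotient.eq_zero_iff_mem]
  have h1 : Ideal.Quotient.mk I (aeval x P) = aeval (Ideal.Quotient.mk I x) P :=
    (aeval_algebraMap_apply (R0 ⧸ I) x P).symm
  rw [h1, aeval_def]
  exact hPx

end Integrality

section Contraction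

variable {R0 : Type*} (R1 R01 : Type*) [CommRing R0] [CommRing R1] [CommRing R01]
  [Algebra R0 R01] [Algebra R1 R01]

/-- The contraction `(I · R01) ∩ R1` of an ideal `I` of `R0` to `R1`. -/
abbrev contraction (I : Ideal R0) : Ideal R1 :=
  (I.map (algebraMap R0 R01)).comap (algebraMap R1 R01)

variable {R1 R01}

theorem mem_contraction {I : Ideal R0} {z : R1} :
    z ∈ contraction R1 R01 I ↔ algebraMap R1 R01 z ∈ I.map (algebraMap R0 R01) :=
  Iff.rfl

/-- `I₁ · R01 = I · R01`. -/
theorem map_contraction (y : R1) [IsLocalization.Away y R01] (I : Ideal R0) :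
    (contraction R1 R01 I).map (algebraMap R1 R01) = I.map (algebraMap R0 R01) :=
  IsLocalization.map_under (Submonoid.powers y) R01 _

/-- A monic equation for `x` modulo `I` produces an element `1 + y * w` of the contraction. -/
theorem exists_one_add_mul_mem_contraction_of_monic {A : Type*} [CommRing A] [Algebra A R0]
    [Algebra A R1] [Algebra A R01] [IsScalarTower A R0 R01] [IsScalarTower A R1 R01]
    (x : R0) (y : R1) (hxy : algebraMap R0 R01 x * algebraMap R1 R01 y = 1) (I : Ideal R0)
    (P : A[X]) (hP : P.Monic) (hPI : aeval x P ∈ I) :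
    ∃ w : R1, 1 + y * w ∈ contraction R1 R01 I := by
  obtain ⟨W, hW⟩ := X_dvd_sub_C (p := P.reverse)
  rw [coeff_zero_reverse, hP.leadingCoeff] at hW
  refine ⟨aeval y W, ?_⟩
  have hu : 1 + y * aeval y W = aeval y P.reverse := by
    have := congrArg (aeval y) hW
    simp only [map_sub, map_mul, aeval_X, map_one] at this
    rw [← this]; ring
  rw [hu, mem_contraction]
  letI : Invertible (algebraMap R0 R01 x) :=
    ⟨algebraMap R1 R01 y, by rw [mul_comm]; exact hxy, hxy⟩
  have h1 : algebraMap R1 R01 (aeval y P.reverse) =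
      eval₂ (algebraMap A R01) (⅟(algebraMap R0 R01 x)) P.reverse := by
    rw [← aeval_algebraMap_apply, aeval_def]
    rfl
  have h2 := eval₂_reverse_mul_pow (algebraMap A R01) (algebraMap R0 R01 x) P
  have h3 : eval₂ (algebraMap A R01) (algebraMap R0 R01 x) P =
      algebraMap R0 R01 (aeval x P) := by
    rw [← aeval_def, aeval_algebraMap_apply]
  have h4 : eval₂ (algebraMap A R01) (⅟(algebraMap R0 R01 x)) P.reverse =
      algebraMap R0 R01 (aeval x P) * (algebraMap R1 R01 y) ^ P.natDegree := by
    rw [← h3, ← h2, mul_assoc, ← mul_pow, hxy, one_pow, mul_one]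
  rw [h1, h4]
  exact Ideal.mul_mem_right _ _ (Ideal.mem_map_of_mem _ hPI)

/-- **H6 (a).** If `R0 ⧸ I` is finite over `A`, the contraction contains an element
`1 + y * w`. -/
theorem exists_one_add_mul_mem_contraction {A : Type*} [CommRing A] [Algebra A R0]
    [Algebra A R1] [Algebra A R01] [IsScalarTower A R0 R01] [IsScalarTower A R1 R01]
    (x : R0) (y : R1) (hxy : algebraMap R0 R01 x * algebraMap R1 R01 y = 1) (I : Ideal R0)
    [Module.Finite A (R0 ⧸ I)] :
    ∃ w : R1, 1 + y * w ∈ contraction R1 R01 I := by
  obtain ⟨P, hP, hPI⟩ := exists_monic_aeval_mem (A := A) I x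
  exact exists_one_add_mul_mem_contraction_of_monic x y hxy I P hP hPI

/-- **H6 (a').** `I₁ ⊔ (y) = ⊤`. -/
theorem contraction_sup_span_of_mem {I : Ideal R0} {y w : R1}
    (hw : 1 + y * w ∈ contraction R1 R01 I) :
    contraction R1 R01 I ⊔ Ideal.span {y} = ⊤ := by
  rw [Ideal.eq_top_iff_one]
  have h1 : (1 : R1) = (1 + y * w) + y * (-w) := by ring
  rw [h1]
  exact Ideal.add_mem _ (Ideal.mem_sup_left hw)
    (Ideal.mem_sup_right (Ideal.mul_mem_right _ _ (Ideal.subset_span rfl)))

theorem contraction_sup_span {A : Type*} [CommRing A] [Algebra A R0]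
    [Algebra A R1] [Algebra A R01] [IsScalarTower A R0 R01] [IsScalarTower A R1 R01]
    (x : R0) (y : R1) (hxy : algebraMap R0 R01 x * algebraMap R1 R01 y = 1) (I : Ideal R0)
    [Module.Finite A (R0 ⧸ I)] :
    contraction R1 R01 I ⊔ Ideal.span {y} = ⊤ := by
  obtain ⟨w, hw⟩ := exists_one_add_mul_mem_contraction (A := A) x y hxy I
  exact contraction_sup_span_of_mem hw

/-- **H6 (uniqueness).** The contraction is the only ideal `J` of `R1` with `J · R01 = I · R01`
and `J ⊔ (y) = ⊤`. -/
theorem eq_contraction (y : R1) [IsLocalization.Away y R01] (I : Ideal R0) (J : Ideal R1)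
    (hJ : J.map (algebraMap R1 R01) = I.map (algebraMap R0 R01))
    (hJy : J ⊔ Ideal.span {y} = ⊤) : J = contraction R1 R01 I := by
  apply le_antisymm
  · intro z hz
    rw [mem_contraction, ← hJ]
    exact Ideal.mem_map_of_mem _ hz
  · intro z hz
    rw [mem_contraction, ← hJ, IsLocalization.mem_map_algebraMap_iff (Submonoid.powers y)] at hz
    obtain ⟨⟨j, s⟩, hjs⟩ := hz
    obtain ⟨m, hm⟩ := s.2
    have hm' : y ^ m = (s : R1) := hm
    have h1 : algebraMap R1 R01 (z * y ^ m) = algebraMap R1 R01 (j : R1) := by
      rw [map_mul, hm']; exact hjs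
    obtain ⟨c, hc⟩ := (IsLocalization.eq_iff_exists (Submonoid.powers y) R01).mp h1
    obtain ⟨k, hk⟩ := c.2
    have h2 : y ^ (k + m) * z ∈ J := by
      have : y ^ (k + m) * z = (c : R1) * (z * y ^ m) := by rw [← hk]; ring
      rw [this, hc]
      exact J.mul_mem_left _ j.2
    have h3 : J ⊔ Ideal.span {y ^ (k + m)} = ⊤ := by
      rw [← Ideal.span_singleton_pow]
      exact Ideal.sup_pow_eq_top' hJy
    obtain ⟨a, ha, b, hb, hab⟩ := Submodule.mem_sup.mp ((Ideal.eq_top_iff_one _).mp h3)
    obtain ⟨b', rfl⟩ := Ideal.mem_span_singleton'.mp hb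
    have : z = a * z + b' * (y ^ (k + m) * z) := by
      calc z = (a + b' * y ^ (k + m)) * z := by rw [hab, one_mul]
        _ = _ := by ring
    rw [this]
    exact J.add_mem (J.mul_mem_right _ ha) (J.mul_mem_left _ h2)

/-- The canonical map from the contraction `I₁` to `I · R01`. -/
def contractionMap (I : Ideal R0) :
    contraction R1 R01 I →ₗ[R1] (I.map (algebraMap R0 R01)) :=
  (Algebra.linearMap R1 R01).restrict (p := contraction R1 R01 I)
    (q := (I.map (algebraMap R0 R01)).restrictScalars R1) (fun _ hz => hz)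

@[simp]
theorem contractionMap_apply_coe (I : Ideal R0) (z : contraction R1 R01 I) :
    ((contractionMap I z : I.map (algebraMap R0 R01)) : R01) = algebraMap R1 R01 z :=
  rfl

/-- **H6 (gluing datum).** `I₁ → I · R01` is the localization of `I₁` at `y`. -/
theorem contractionMap_isLocalizedModule (y : R1) [IsLocalization.Away y R01] (I : Ideal R0) :
    IsLocalizedModule (Submonoid.powers y)
      (contractionMap I : contraction R1 R01 I →ₗ[R1] (I.map (algebraMap R0 R01))) where
  map_units s :=
    (Module.End.isUnit_iff _).mpr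
      ⟨fun a b e ↦ Subtype.ext
        ((IsLocalization.map_units R01 s).mul_right_injective
          (by simpa [Algebra.smul_def] using congrArg Subtype.val e)),
        fun a ↦ ⟨⟨_, Ideal.mul_mem_left _ (IsLocalization.map_units R01 s).unit⁻¹.1 a.2⟩,
          Subtype.ext (by simp [Algebra.smul_def, ← mul_assoc])⟩⟩
  surj n := by
    obtain ⟨⟨z, s⟩, hzs⟩ := IsLocalization.surj (Submonoid.powers y) (n : R01)
    have hz : z ∈ contraction R1 R01 I := by
      rw [mem_contraction, ← hzs]
      exact Ideal.mul_mem_right _ _ n.2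
    exact ⟨⟨⟨z, hz⟩, s⟩, Subtype.ext
      (by simpa [Submonoid.smul_def, Algebra.smul_def, mul_comm] using hzs)⟩
  exists_of_eq {a b} h := by
    obtain ⟨c, hc⟩ := (IsLocalization.eq_iff_exists (Submonoid.powers y) R01).mp
      (congrArg Subtype.val h)
    exact ⟨c, Subtype.ext hc⟩

/-- `I` invertible over `R0` ⇒ `I · R01` invertible over `R01`. -/
theorem invertible_map (x : R0) [IsLocalization.Away x R01] (I : Ideal R0)
    [Module.Invertible R0 I] : Module.Invertible R01 (I.map (algebraMap R0 R01)) :=
  Module.Invertible.of_isLocalization (Submonoid.powers x) (Algebra.idealMap R01 I)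

/-- **H6 (b).** The contraction of an ideal which is invertible on the overlap is invertible. -/
theorem contraction_invertible_of_map (y : R1) [IsLocalization.Away y R01] (I : Ideal R0)
    [Module.Invertible R01 (I.map (algebraMap R0 R01))]
    {w : R1} (hw : 1 + y * w ∈ contraction R1 R01 I) :
    Module.Invertible R1 (contraction R1 R01 I) := by
  set u : R1 := 1 + y * w with hu
  have hspan : Ideal.span {y, u} = ⊤ := by
    rw [Ideal.eq_top_iff_one]
    have h1 : (1 : R1) = u + y * (-w) := by rw [hu]; ring
    rw [h1]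
    exact Ideal.add_mem _ (Ideal.subset_span (by simp))
      (Ideal.mul_mem_right _ _ (Ideal.subset_span (by simp)))
  haveI := contractionMap_isLocalizedModule (R01 := R01) y I
  -- the localization at `u` is the unit ideal
  have htop : (contraction R1 R01 I).map (algebraMap R1 (Localization.Away u)) = ⊤ :=
    Ideal.eq_top_of_isUnit_mem _ (Ideal.mem_map_of_mem _ hw)
      (IsLocalization.Away.algebraMap_isUnit u)
  haveI : Module.Invertible (Localization.Away u)
      ((contraction R1 R01 I).map (algebraMap R1 (Localization.Away u))) :=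
    .congr ((Submodule.topEquiv (R := Localization.Away u)
      (M := Localization.Away u)).symm.trans (LinearEquiv.ofEq _ _ htop.symm))
  exact invertible_of_isLocalized_pair y u hspan
    (Rf := R01) (contractionMap I)
    (Rg := Localization.Away u) (Algebra.idealMap (Localization.Away u) (contraction R1 R01 I))

/-- **H6 (b).** The contraction of an invertible ideal is invertible. -/
theorem contraction_invertible (x : R0) [IsLocalization.Away x R01] (y : R1)
    [IsLocalization.Away y R01] (I : Ideal R0) [Module.Invertible R0 I]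
    {w : R1} (hw : 1 + y * w ∈ contraction R1 R01 I) :
    Module.Invertible R1 (contraction R1 R01 I) :=
  haveI := invertible_map (R01 := R01) x I
  contraction_invertible_of_map y I hw

/-- **H6, final form.** `R0 ⧸ I` finite over `A` and `I` invertible ⇒ the contraction `I₁` is an
invertible `R1`-module. -/
theorem contraction_invertible_of_finite {A : Type*} [CommRing A] [Algebra A R0]
    [Algebra A R1] [Algebra A R01] [IsScalarTower A R0 R01] [IsScalarTower A R1 R01]
    (x : R0) [IsLocalization.Away x R01] (y : R1) [IsLocalization.Away y R01]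
    (hxy : algebraMap R0 R01 x * algebraMap R1 R01 y = 1) (I : Ideal R0)
    [Module.Finite A (R0 ⧸ I)] [Module.Invertible R0 I] :
    Module.Invertible R1 (contraction R1 R01 I) := by
  obtain ⟨w, hw⟩ := exists_one_add_mul_mem_contraction (A := A) x y hxy I
  exact contraction_invertible x y I hw

/-- **H6 (c).** `R1 ⧸ I₁ → R01 ⧸ I · R01` is bijective: the divisor does not meet `y = 0`. -/
theorem quotientMap_contraction_bijective (y : R1) [IsLocalization.Away y R01] (I : Ideal R0)
    {w : R1} (hw : 1 + y * w ∈ contraction R1 R01 I) :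
    Function.Bijective
      (Ideal.quotientMap (I.map (algebraMap R0 R01)) (algebraMap R1 R01)
        (le_refl (contraction R1 R01 I))) := by
  refine ⟨Ideal.quotientMap_injective, fun q => ?_⟩
  obtain ⟨z, rfl⟩ := Ideal.Quotient.mk_surjective q
  obtain ⟨⟨r, s⟩, hrs⟩ := IsLocalization.surj (Submonoid.powers y) z
  obtain ⟨m, hm⟩ := s.2
  refine ⟨Ideal.Quotient.mk _ (r * (-w) ^ m), ?_⟩
  rw [Ideal.quotientMap_mk, Ideal.Quotient.eq]
  have hyw : algebraMap R1 R01 y * algebraMap R1 R01 (-w) - 1 ∈ I.map (algebraMap R0 R01) := by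
    have h1 : algebraMap R1 R01 y * algebraMap R1 R01 (-w) - 1 =
        -(algebraMap R1 R01 (1 + y * w)) := by
      simp only [map_neg, map_add, map_one, map_mul]; ring
    rw [h1]
    exact neg_mem hw
  have hpow : (algebraMap R1 R01 y * algebraMap R1 R01 (-w)) ^ m - 1 ∈
      I.map (algebraMap R0 R01) := by
    have := Ideal.Quotient.eq.mpr hyw
    rw [← Ideal.Quotient.eq, map_pow, this, map_one, one_pow]
  have h2 : algebraMap R1 R01 (r * (-w) ^ m) - z =
      z * ((algebraMap R1 R01 y * algebraMap R1 R01 (-w)) ^ m - 1) := by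
    have hm' : y ^ m = (s : R1) := hm
    have hrs' : z * algebraMap R1 R01 (y ^ m) = algebraMap R1 R01 r := by rw [hm']; exact hrs
    rw [map_mul, ← hrs', map_pow, map_pow, mul_pow]
    ring
  rw [h2]
  exact Ideal.mul_mem_left _ _ hpow

end Contraction

end Fermat.Agent.S25.H911
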