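import Fermat.Agent.S25.H911.GDCBase
import Fermat.Agent.S25.H926.AlgChartsFormal

/-!
# S25 / block GDC (helper911): the three GDC inputs of `H926.algCharts_of_atlas`

`H926.BCExists`, `H926.BCComp`, `H926.BCRig` (frozen in `H926/AlgChartsFormal.lean`), proved
unconditionally.
-/

set_option autoImplicit false

universe u

open scoped TensorProduct

namespace Fermat.Agent.S25.H911

open Fermat.Agent.S25

variable (k : Type u) [Field k] (B₀ B₁ B₀₁ : Type u) [CommRing B₀] [CommRing B₁] [CommRing B₀₁]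
  [Algebra k B₀] [Algebra k B₁] [Algebra k B₀₁] [Algebra B₀ B₀₁] [Algebra B₁ B₀₁]
  [IsScalarTower k B₀ B₀₁] [IsScalarTower k B₁ B₀₁]

/-- GDC: base changes of gluing data exist. -/
theorem bcExists_H926 : H926.BCExists k B₀ B₁ B₀₁ :=
  fun _ _ _ _ _ _ φ G => curveGD_exists_isBC φ G

/-- GDC: base changes compose. -/
theorem bcComp_H926 : H926.BCComp k B₀ B₁ B₀₁ :=
  fun _ _ _ _ _ _ _ _ _ φ ψ _ _ _ h h' => curveGD_isBC_comp φ ψ h h'

variable {B₀ B₀₁} in
/-- GDC: rigidifiability is stable under base change. -/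
theorem bcRig_H926 (e : B₁ →ₐ[k] k) : H926.BCRig k B₁ (B₀ := B₀) (B₀₁ := B₀₁) e :=
  fun _ _ _ _ _ _ φ _ _ h hr => curveGD_rigidifiable_of_isBC e φ h hr

end Fermat.Agent.S25.H911
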