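import Fermat.Agent.S25.H911.GDCBase
import Fermat.Agent.S25.DefsDict
import Fermat.Agent.S25.H687.DDDefs
import Fermat.Agent.S25.H206.DictDegMp
import Fermat.Agent.S25.H865.DictDegMp

/-!
# S25 / block GDC (helper911): the GDC inputs of the dictionary blocks

* `algBCExists : Stmt.AlgBCExists Ch` (frozen in `DefsDict.lean`; input of the master assembly);
* `bcId_H687`, `bcComp_H687`, `degIso_H687` (frozen in `H687/DDDefs.lean`);
* `degreeIso_H206` (frozen in `H206/DictDegMp.lean`);
* `degIsoInvariant_H865` (frozen in `H865/DictDegMp.lean`).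
All unconditional.
-/

set_option autoImplicit false

universe u

open CategoryTheory CategoryTheory.Limits AlgebraicGeometry AlgebraicGeometry.RelPicard
  NeronModelInfra GoodReductionJacobian
open scoped TensorProduct

namespace Fermat.Agent.S25.H911

open Fermat.Agent.S25

section Alg

variable (k : Type u) [Field k] (B₀ B₁ B₀₁ : Type u) [CommRing B₀] [CommRing B₁] [CommRing B₀₁]
  [Algebra k B₀] [Algebra k B₁] [Algebra k B₀₁] [Algebra B₀ B₀₁] [Algebra B₁ B₀₁]
  [IsScalarTower k B₀ B₀₁] [IsScalarTower k B₁ B₀₁]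

/-- GDC: every gluing datum is a base change of itself along the identity. -/
theorem bcId_H687 : H687.BCId k B₀ B₁ B₀₁ :=
  fun _ _ _ G => curveGD_isBC_id G

/-- GDC: base changes compose. -/
theorem bcComp_H687 : H687.BCComp k B₀ B₁ B₀₁ :=
  fun _ _ _ _ _ _ _ _ _ φ ψ _ _ _ h h' => curveGD_isBC_comp φ ψ h h'

/-- GDC: over a field, isomorphic gluing data have the same degree. -/
theorem degIso_H687 : H687.DegIso k B₀ B₁ B₀₁ :=
  fun _ _ _ _ _ h => curveGD_degree_eq_of_isIso h

/-- DEGREE fact: the degree of a gluing datum over a field is an isomorphism invariant. -/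
theorem degIsoInvariant_H865 : H865.DegIsoInvariant k B₀ B₁ B₀₁ :=
  fun _ _ _ _ _ h => curveGD_degree_eq_of_isIso h

end Alg

section Dict

variable {k : Type u} [Field k] {C : Scheme.{u}} {c : C ⟶ Spec (CommRingCat.of k)}
  {ε : SchemeHomOver (𝟙 (Spec (CommRingCat.of k))) c}

/-- **ALG-BC-EXISTS** (frozen input of the master assembly): base changes of gluing data
exist. -/
theorem algBCExists (Ch : ChartOf c ε) : Stmt.AlgBCExists Ch :=
  fun _ _ _ _ _ _ φ G => curveGD_exists_isBC φ G

/-- The degree of gluing data over fields is invariant under isomorphism. -/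
theorem degreeIso_H206 (Ch : ChartOf c ε) : H206.DegreeIso Ch :=
  fun _ _ _ _ _ h => curveGD_degree_eq_of_isIso h

end Dict

end Fermat.Agent.S25.H911
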