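import Fermat.Agent.S25.H911.AlgDefCore

/-!
# S25 / block GDC (helper911): the calculus of semilinear base changes

Pure algebra on the frozen `IsSemilinearBaseChange` of `DefsAlg.lean`.

* `isSemilinearBaseChange_of_equiv` / `IsSemilinearBaseChange.exists_equiv` : a semilinear map
  `b : N →ₛₗ[ρ] N'` is a base change iff the induced map `S ⊗[R] N → N'` is bijective.
* `isSemilinearBaseChange_comp` : composition.
* `isSemilinearBaseChange_of_comp` : cancellation on the left.
* `exists_semilinear_square` : the fourth side of a base-change square.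
* `exists_semilinear_baseChange` : base changes exist.
-/

set_option autoImplicit false
set_option linter.style.haveILetI false

universe u

open scoped TensorProduct

namespace Fermat.Agent.S25.H911

open Fermat.Agent.S25

section Comp

variable {R S T : Type u} [CommRing R] [CommRing S] [CommRing T]
  {N N' N'' : Type u} [AddCommGroup N] [Module R N] [AddCommGroup N'] [Module S N']
  [AddCommGroup N''] [Module T N'']

/-- **Composition** of semilinear base changes. -/
theorem isSemilinearBaseChange_comp (ρ : R →+* S) (ρ' : S →+* T) (σ : R →+* T)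
    (hσ : σ = ρ'.comp ρ) (b : N →ₛₗ[ρ] N') (b' : N' →ₛₗ[ρ'] N'') (c : N →ₛₗ[σ] N'')
    (hc : ∀ n, c n = b' (b n)) (hb : IsSemilinearBaseChange ρ b)
    (hb' : IsSemilinearBaseChange ρ' b') : IsSemilinearBaseChange σ c := by
  subst hσ
  rw [isSemilinearBaseChange_iff] at hb hb' ⊢
  letI : Algebra R S := ρ.toAlgebra
  letI : Algebra S T := ρ'.toAlgebra
  letI : Algebra R T := (ρ'.comp ρ).toAlgebra
  haveI : IsScalarTower R S T := IsScalarTower.of_algebraMap_eq (fun x => rfl)
  letI : Module R N' := Module.compHom N' ρ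
  haveI : IsScalarTower R S N' := ⟨fun r r' n => by
    change (ρ r * r') • n = ρ r • (r' • n); rw [mul_smul]⟩
  letI : Module S N'' := Module.compHom N'' ρ'
  haveI : IsScalarTower S T N'' := ⟨fun r r' n => by
    change (ρ' r * r') • n = ρ' r • (r' • n); rw [mul_smul]⟩
  letI : Module R N'' := Module.compHom N'' (ρ'.comp ρ)
  haveI : IsScalarTower R T N'' := ⟨fun r r' n => by
    change ((ρ'.comp ρ) r * r') • n = (ρ'.comp ρ) r • (r' • n); rw [mul_smul]⟩
  haveI : IsScalarTower R S N'' := ⟨fun r r' n => by
    change ρ' (ρ r * r') • n = ρ' (ρ r) • (ρ' r' • n); rw [map_mul, mul_smul]⟩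
  have h := IsBaseChange.comp hb hb'
  convert h using 1
  ext n
  exact hc n

/-- **Cancellation**: if `b` and `b' ∘ b` are semilinear base changes, so is `b'`. -/
theorem isSemilinearBaseChange_of_comp (ρ : R →+* S) (ρ' : S →+* T) (σ : R →+* T)
    (hσ : σ = ρ'.comp ρ) (b : N →ₛₗ[ρ] N') (b' : N' →ₛₗ[ρ'] N'') (c : N →ₛₗ[σ] N'')
    (hc : ∀ n, c n = b' (b n)) (hb : IsSemilinearBaseChange ρ b)
    (hcc : IsSemilinearBaseChange σ c) : IsSemilinearBaseChange ρ' b' := by
  subst hσ
  rw [isSemilinearBaseChange_iff] at hb hcc ⊢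
  letI : Algebra R S := ρ.toAlgebra
  letI : Algebra S T := ρ'.toAlgebra
  letI : Algebra R T := (ρ'.comp ρ).toAlgebra
  haveI : IsScalarTower R S T := IsScalarTower.of_algebraMap_eq (fun x => rfl)
  letI : Module R N' := Module.compHom N' ρ
  haveI : IsScalarTower R S N' := ⟨fun r r' n => by
    change (ρ r * r') • n = ρ r • (r' • n); rw [mul_smul]⟩
  letI : Module S N'' := Module.compHom N'' ρ'
  haveI : IsScalarTower S T N'' := ⟨fun r r' n => by
    change (ρ' r * r') • n = ρ' r • (r' • n); rw [mul_smul]⟩
  letI : Module R N'' := Module.compHom N'' (ρ'.comp ρ)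
  haveI : IsScalarTower R T N'' := ⟨fun r r' n => by
    change ((ρ'.comp ρ) r * r') • n = (ρ'.comp ρ) r • (r' • n); rw [mul_smul]⟩
  haveI : IsScalarTower R S N'' := ⟨fun r r' n => by
    change ρ' (ρ r * r') • n = ρ' (ρ r) • (ρ' r' • n); rw [map_mul, mul_smul]⟩
  refine IsBaseChange.of_comp hb ?_
  convert hcc using 1
  ext n
  exact (hc n).symm

end Comp

section Square

variable {R S R' S' : Type u} [CommRing R] [CommRing S] [CommRing R'] [CommRing S']
  {N M N' M' : Type u} [AddCommGroup N] [Module R N] [AddCommGroup M] [Module S M]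
  [AddCommGroup N'] [Module R' N'] [AddCommGroup M'] [Module S' M']

/-- **Universal property** of a semilinear base change: a `(α' ∘ ρ)`-semilinear map out of `N`
factors uniquely through the base change `b : N → N'` over `ρ` by an `α'`-semilinear map. -/
theorem exists_semilinear_factor (ρ : R →+* R') (α' : R' →+* S') (τ : R →+* S')
    (hτ : τ = α'.comp ρ) (b : N →ₛₗ[ρ] N') (hb : IsSemilinearBaseChange ρ b)
    (d : N →ₛₗ[τ] M') : ∃ r' : N' →ₛₗ[α'] M', ∀ n, r' (b n) = d n := by
  subst hτ
  rw [isSemilinearBaseChange_iff] at hb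
  letI : Algebra R R' := ρ.toAlgebra
  letI : Module R N' := Module.compHom N' ρ
  haveI : IsScalarTower R R' N' := ⟨fun r r' n => by
    change (ρ r * r') • n = ρ r • (r' • n); rw [mul_smul]⟩
  letI : Module R' M' := Module.compHom M' α'
  letI : Module R M' := Module.compHom M' (α'.comp ρ)
  haveI : IsScalarTower R R' M' := ⟨fun r r' n => by
    change α' (ρ r * r') • n = α' (ρ r) • (α' r' • n); rw [map_mul, mul_smul]⟩
  let dl : N →ₗ[R] M' :=
    { toFun := fun n => d n
      map_add' := fun m n => d.map_add m n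
      map_smul' := fun r n => LinearMap.map_smulₛₗ d r n }
  refine ⟨{ toFun := fun x => hb.lift dl x
            map_add' := fun x y => (hb.lift dl).map_add x y
            map_smul' := fun s x => (hb.lift dl).map_smul s x }, fun n => ?_⟩
  exact hb.lift_eq dl n

/-- **The fourth side of a base-change square.**  Given a commutative square of rings
`σ ∘ α = α' ∘ ρ` and semilinear base changes `r : N → M` over `α`, `b : N → N'` over `ρ`,
`c : M → M'` over `σ`, there is a semilinear base change `r' : N' → M'` over `α'` with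
`r' ∘ b = c ∘ r`. -/
theorem exists_semilinear_square (α : R →+* S) (ρ : R →+* R') (σ : S →+* S') (α' : R' →+* S')
    (h : σ.comp α = α'.comp ρ)
    (r : N →ₛₗ[α] M) (hr : IsSemilinearBaseChange α r)
    (b : N →ₛₗ[ρ] N') (hb : IsSemilinearBaseChange ρ b)
    (c : M →ₛₗ[σ] M') (hc : IsSemilinearBaseChange σ c) :
    ∃ r' : N' →ₛₗ[α'] M', IsSemilinearBaseChange α' r' ∧ ∀ n, r' (b n) = c (r n) := by
  let d : N →ₛₗ[σ.comp α] M' :=
    { toFun := fun n => c (r n)
      map_add' := fun m n => by rw [map_add, map_add]
      map_smul' := fun x n => by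
        rw [LinearMap.map_smulₛₗ, LinearMap.map_smulₛₗ]; rfl }
  have hd : IsSemilinearBaseChange (σ.comp α) d :=
    isSemilinearBaseChange_comp α σ (σ.comp α) rfl r c d (fun _ => rfl) hr hc
  obtain ⟨r', hr'⟩ := exists_semilinear_factor ρ α' (σ.comp α) h b hb d
  exact ⟨r', isSemilinearBaseChange_of_comp ρ α' (σ.comp α) h b r' d
    (fun n => (hr' n).symm) hb hd, hr'⟩

/-- A ring homomorphism, viewed as a semilinear map, is a semilinear base change. -/
theorem isSemilinearBaseChange_self (σ : S →+* S') :
    IsSemilinearBaseChange σ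
      ({ toFun := fun a => σ a
         map_add' := fun a b => map_add σ a b
         map_smul' := fun a b => map_mul σ a b } : S →ₛₗ[σ] S') := by
  letI : Algebra S S' := σ.toAlgebra
  exact IsBaseChange.linearMap S S'

/-- **The fourth side of a base-change square**, mixed form: the horizontal maps are linear
base changes along `algebraMap R S` and `algebraMap R' S'`, the vertical ones are semilinear
base changes over `ρ` and `σ`. -/
theorem exists_linear_square [Algebra R S] [Algebra R' S'] (ρ : R →+* R') (σ : S →+* S')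
    (h : σ.comp (algebraMap R S) = (algebraMap R' S').comp ρ)
    [Module R M] [IsScalarTower R S M] [Module R' M'] [IsScalarTower R' S' M']
    (r : N →ₗ[R] M) (hr : IsBaseChange S r)
    (b : N →ₛₗ[ρ] N') (hb : IsSemilinearBaseChange ρ b)
    (c : M →ₛₗ[σ] M') (hc : IsSemilinearBaseChange σ c) :
    ∃ r' : N' →ₗ[R'] M', IsBaseChange S' r' ∧ ∀ n, r' (b n) = c (r n) := by
  rw [isSemilinearBaseChange_iff] at hb hc
  letI aRR' : Algebra R R' := ρ.toAlgebra
  letI aSS' : Algebra S S' := σ.toAlgebra
  letI aRS' : Algebra R S' := (σ.comp (algebraMap R S)).toAlgebra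
  haveI tRSS' : IsScalarTower R S S' := IsScalarTower.of_algebraMap_eq (fun x => rfl)
  haveI tRR'S' : IsScalarTower R R' S' := IsScalarTower.of_algebraMap_eq (fun x =>
    RingHom.congr_fun h x)
  letI mRN' : Module R N' := Module.compHom N' ρ
  haveI tN' : IsScalarTower R R' N' := ⟨fun r r' n => by
    change (ρ r * r') • n = ρ r • (r' • n); rw [mul_smul]⟩
  letI mSM' : Module S M' := Module.compHom M' σ
  haveI tSM' : IsScalarTower S S' M' := ⟨fun r r' n => by
    change (σ r * r') • n = σ r • (r' • n); rw [mul_smul]⟩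
  letI mRM' : Module R M' := Module.compHom M' (σ.comp (algebraMap R S))
  haveI tRSM' : IsScalarTower R S M' := ⟨fun r s n => by
    change σ (r • s) • n = σ (algebraMap R S r) • (σ s • n)
    rw [Algebra.smul_def, map_mul, mul_smul]⟩
  haveI tRS'M' : IsScalarTower R S' M' := ⟨fun r s n => by
    change (σ (algebraMap R S r) * s) • n = σ (algebraMap R S r) • (s • n)
    rw [mul_smul]⟩
  haveI tRR'M' : IsScalarTower R R' M' := ⟨fun r s n => by
    change (ρ r * s) • n = σ (algebraMap R S r) • (s • n)
    have h' : σ (algebraMap R S r) = algebraMap R' S' (ρ r) := RingHom.congr_fun h r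
    rw [h', mul_smul, algebraMap_smul]⟩
  let bl : N →ₗ[R] N' :=
    { toFun := fun n => b n
      map_add' := fun m n => b.map_add m n
      map_smul' := fun r n => LinearMap.map_smulₛₗ b r n }
  have hbl : IsBaseChange R' bl := hb
  let cl : M →ₗ[S] M' :=
    { toFun := fun n => c n
      map_add' := fun m n => c.map_add m n
      map_smul' := fun r n => LinearMap.map_smulₛₗ c r n }
  have hcl : IsBaseChange S' cl := hc
  have hcomp : IsBaseChange S' ((cl.restrictScalars R).comp r) := IsBaseChange.comp hr hcl
  let r' : N' →ₗ[R'] M' := hbl.lift ((cl.restrictScalars R).comp r)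
  have hr'c : (r'.restrictScalars R).comp bl = (cl.restrictScalars R).comp r :=
    hbl.lift_comp _
  refine ⟨r', IsBaseChange.of_comp hbl (by rw [hr'c]; exact hcomp), fun n => ?_⟩
  exact LinearMap.congr_fun hr'c n

/-- A `ρ`-semilinear map induced by an isomorphism `R' ⊗[R] N ≃ N'` (for the algebra structure
`ρ.toAlgebra`) is a semilinear base change. -/
theorem isSemilinearBaseChange_of_tensorEquiv (ρ : R →+* R') (b : N →ₛₗ[ρ] N')
    (e : letI : Algebra R R' := ρ.toAlgebra; R' ⊗[R] N ≃ₗ[R'] N')
    (he : letI : Algebra R R' := ρ.toAlgebra; ∀ m : N, e ((1 : R') ⊗ₜ[R] m) = b m) :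
    IsSemilinearBaseChange ρ b := by
  rw [isSemilinearBaseChange_iff]
  letI : Algebra R R' := ρ.toAlgebra
  letI : Module R N' := Module.compHom N' ρ
  haveI : IsScalarTower R R' N' := ⟨fun r r' n => by
    change (ρ r * r') • n = ρ r • (r' • n); rw [mul_smul]⟩
  exact IsBaseChange.of_equiv e he

/-- Base changes of modules exist, in semilinear form, and preserve invertibility. -/
theorem exists_semilinear_baseChange (ρ : R →+* R') (N : Type u) [AddCommGroup N] [Module R N] :
    ∃ (N' : Type u) (_ : AddCommGroup N') (_ : Module R' N') (b : N →ₛₗ[ρ] N'),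
      IsSemilinearBaseChange ρ b ∧ (Module.Invertible R N → Module.Invertible R' N') := by
  letI : Algebra R R' := ρ.toAlgebra
  refine ⟨R' ⊗[R] N, inferInstance, inferInstance,
    { toFun := fun n => (1 : R') ⊗ₜ[R] n
      map_add' := fun m n => TensorProduct.tmul_add _ _ _
      map_smul' := fun r n => by
        rw [TensorProduct.tmul_smul, TensorProduct.smul_tmul', TensorProduct.smul_tmul',
          Algebra.smul_def, smul_eq_mul]
        rfl }, ?_, fun hN => inferInstance⟩
  exact isSemilinearBaseChange_of_tensorEquiv ρ _ (LinearEquiv.refl R' (R' ⊗[R] N))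
    (fun x => rfl)

end Square

end Fermat.Agent.S25.H911
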